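import Fermat.Agent.LT.C4.Congruent
import Fermat.Agent.LT.Interface
import Fermat.Agent.S48
import Fermat.Agent.Galois.Cyclotomic

/-!
# C4: residual modularity at `3` from the weight one form
-/

set_option autoImplicit false

noncomputable section

namespace Fermat.Agent.LT.C4

open DS Matrix ModularFormClass CongruenceSubgroup EisensteinWeightOne

/-- The determinant of a representation with `det = ω` at a Frobenius element. -/
theorem det_frobenius {ρ₃ : GalQ →* GL (Fin 2) (ZMod 3)}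
    (hdet : ∀ σ, Matrix.GeneralLinearGroup.det (ρ₃ σ) = WeierstrassCurve.modThreeCyclotomicChar σ)
    {p : ℕ} (hp : p.Prime) (hp3 : ¬ 3 ∣ p) {A : ValuationSubring (AlgebraicClosure ℚ)}
    (hA : A.LiesOverPrime p) {σ : GalQ} (hσ : A.IsFrobeniusAt σ p) :
    (ρ₃ σ : Matrix (Fin 2) (Fin 2) (ZMod 3)).det = (p : ZMod 3) := by
  have h := congrArg Units.val (hdet σ)
  rw [WeierstrassCurve.modThreeCyclotomicChar_apply, Galois.modularCyclotomicCharacter_frobenius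
    hA hp hσ (fun h => hp3 ((Nat.prime_dvd_prime_iff_eq hp Nat.prime_three).1 h ▸ dvd_rfl))] at h
  exact h

theorem stmtC4 : StmtC4 := by
  intro hW1 W ρ₃ hΔ hW hρ₃
  obtain ⟨N, hN0, ε, f, h9, hf1, hT, hneb, X, hX, hsplit⟩ := hW1 W ρ₃ hΔ hW hρ₃
  obtain ⟨ρ, hρfac, -, hρp⟩ := Fermat.Agent.S48.result N ε f hf1 hT
  set T : Set ℕ := X ∪ {p | p ∣ 3 * N}
  have hTd : PrimeDensityLE T 0 := by
    refine (hX.union (primeDensityLE_of_finite ?_)).mono_right (by simp)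
    exact Set.Finite.subset (Set.finite_Iic (3 * N))
      fun p hp => Nat.le_of_dvd (by have := NeZero.pos N; omega) hp
  obtain ⟨b, hb⟩ := exists_sign_trace_det ρ hρfac ρ₃ hρ₃.factors hρ₃.surjective hTd
    fun p hp hpT A hA σ hσ hdet => by
      simp only [T, Set.mem_union, Set.mem_ofPred_eq, not_or] at hpT
      have hpN : ¬ p ∣ N := fun h => hpT.2 (h.mul_left 3)
      have hp3 : ¬ 3 ∣ p := fun h =>
        hpT.2 ((Nat.prime_dvd_prime_iff_eq Nat.prime_three hp).1 h ▸ dvd_mul_right 3 N)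
      rw [det_frobenius hρ₃.det hp hp3 hA hσ] at hdet
      have hp1 : p % 3 = 1 := by
        have := congrArg ZMod.val hdet
        rwa [ZMod.val_natCast, ZMod.val_one] at this
      rw [((hρp p hp hpN A hA).2 σ hσ).1, ← trace_octRep]
      exact hsplit p hp hpN hp1 hpT.1 A hA σ hσ
  set M := Nat.lcm N 3
  have hM0 : 0 < M := Nat.lcm_pos (NeZero.pos N) three_pos
  have : NeZero M := ⟨hM0.ne'⟩
  choose A σ hA hσ using fun p : Nat.Primes => Galois.exists_place_isFrobeniusAt p.2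
  let x : ℕ → ℤ√(-2) := fun p => if hp : p.Prime then
    (octLift (ρ₃ (σ ⟨p, hp⟩)) : Matrix (Fin 2) (Fin 2) (ℤ√(-2))).trace else 0
  have hgood : ∀ p : ℕ, ∀ hp : p.Prime, ¬ p ∣ M →
      qCoeff f p = iotaSign b (x p) ∧ ε (p : ZMod N) = (chiNegThree p : ℂ) := by
    intro p hp hpM
    have hpN : ¬ p ∣ N := fun h => hpM (h.trans (Nat.dvd_lcm_left _ _))
    have hp3 : ¬ 3 ∣ p := fun h =>
      hpM ((Nat.prime_dvd_prime_iff_eq Nat.prime_three hp).1 h ▸ Nat.dvd_lcm_right _ _)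
    obtain ⟨htr, hdet⟩ := (hρp p hp hpN _ (hA ⟨p, hp⟩)).2 _ (hσ ⟨p, hp⟩)
    obtain ⟨e1, e2⟩ := hb (σ ⟨p, hp⟩)
    refine ⟨by rw [← htr, e1, show x p = _ from dif_pos hp], ?_⟩
    rw [← hdet, e2, detSign, det_frobenius hρ₃.det hp hp3 (hA ⟨p, hp⟩) (hσ ⟨p, hp⟩),
      chiNegThree_eq_of_cast hp3]
  obtain ⟨g, hg, 𝔪, h𝔪, h3𝔪, hcong⟩ := exists_weightTwo_of_weightOne (Nat.dvd_lcm_left N 3)
    (Nat.dvd_lcm_right N 3) ε f hf1 hT hneb b x (fun p hp hpM => (hgood p hp hpM).1)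
    (fun p hp hpM => (hgood p hp hpM).2)
  refine ⟨M, hM0, ⟨g, 𝔪, hg, h𝔪, h3𝔪, fun p hp hgW hpM hp3 => ?_⟩, fun h3Δ h9M => h9 h3Δ ?_⟩
  · obtain ⟨c, hc, hc𝔪⟩ := hcong p hp hpM
    refine ⟨c, hc, ?_⟩
    have hred : ((((x p).re - (x p).im : ℤ)) : ZMod 3) = (W.apOfModel p : ZMod 3) := by
      rw [show x p = _ from dif_pos hp, Int.cast_sub, ← red_apply, red_trace_octLift]
      exact (hρ₃.good p hp hgW hp3 _ (hA ⟨p, hp⟩)).2 _ (hσ ⟨p, hp⟩)
    obtain ⟨d, hd⟩ := (ZMod.intCast_eq_intCast_iff_dvd_sub _ _ 3).1 hred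
    have hd' : W.apOfModel p = ((x p).re - (x p).im) + 3 * d := by push_cast at hd; omega
    rw [hd', Int.cast_add, Int.cast_mul, ← sub_sub]
    exact 𝔪.sub_mem hc𝔪 (𝔪.mul_mem_right _ (by simpa using h3𝔪))
  · by_cases h3N : 3 ∣ N
    · exact (show (9 : ℕ) = 3 ^ 2 by norm_num) ▸ (Nat.lcm_eq_left h3N ▸ h9M)
    · have e : M = N * 3 := Nat.Coprime.lcm_eq_mul
        ((Nat.prime_three.coprime_iff_not_dvd.2 h3N).symm)
      exfalso
      rw [e] at h9M
      exact h3N (by omega)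

end Fermat.Agent.LT.C4
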