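import Fermat.Agent.LT.Data.Lift

/-!
# Determinant and traces of the octahedral lift

`det (octLift g) = ±1` and `conj (tr) = det · tr`: the two embeddings of `ℤ[√-2]` differ on the
trace by the sign character.
-/

set_option autoImplicit false

noncomputable section

namespace Fermat.Agent.LT.C4

open FLT.ExplicitLift Matrix

theorem liftQuad_det_star : ∀ a b c d : ZMod 3, a * d - b * c ≠ 0 →
    ((liftQuad a b c d).e00 * (liftQuad a b c d).e11 -
        (liftQuad a b c d).e01 * (liftQuad a b c d).e10 =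
      if a * d - b * c = 1 then 1 else -1) ∧
    star ((liftQuad a b c d).e00 + (liftQuad a b c d).e11) =
      (if a * d - b * c = 1 then 1 else -1) *
        ((liftQuad a b c d).e00 + (liftQuad a b c d).e11) := by
  decide +kernel

/-- The sign of the determinant. -/
def detSign (g : GL (Fin 2) (ZMod 3)) : ℤ :=
  if (g : Matrix (Fin 2) (Fin 2) (ZMod 3)).det = 1 then 1 else -1

theorem detSign_cast (g : GL (Fin 2) (ZMod 3)) :
    (detSign g : ℤ√(-2)) = if g 0 0 * g 1 1 - g 0 1 * g 1 0 = 1 then 1 else -1 := by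
  rw [detSign, Matrix.det_fin_two]
  split <;> simp

theorem det_octLift (g : GL (Fin 2) (ZMod 3)) :
    (octLift g : Matrix (Fin 2) (Fin 2) (ℤ√(-2))).det = detSign g := by
  rw [detSign_cast, Matrix.det_fin_two]
  exact (liftQuad_det_star _ _ _ _ (det_entries_ne_zero g)).1

theorem star_trace_octLift (g : GL (Fin 2) (ZMod 3)) :
    star (octLift g : Matrix (Fin 2) (Fin 2) (ℤ√(-2))).trace =
      detSign g * (octLift g : Matrix (Fin 2) (Fin 2) (ℤ√(-2))).trace := by
  rw [detSign_cast, Matrix.trace_fin_two]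
  exact (liftQuad_det_star _ _ _ _ (det_entries_ne_zero g)).2

theorem red_trace_octLift (g : GL (Fin 2) (ZMod 3)) :
    red (octLift g : Matrix (Fin 2) (Fin 2) (ℤ√(-2))).trace =
      (g : Matrix (Fin 2) (Fin 2) (ZMod 3)).trace := by
  conv_rhs => rw [← red_octLift g]
  simp [Matrix.trace_fin_two]

theorem trace_octRep (g : GL (Fin 2) (ZMod 3)) :
    (octRep g : Matrix (Fin 2) (Fin 2) ℂ).trace =
      sqrtNegTwoC (octLift g : Matrix (Fin 2) (Fin 2) (ℤ√(-2))).trace := by
  simp [octRep, Matrix.trace_fin_two]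

theorem det_octRep (g : GL (Fin 2) (ZMod 3)) :
    (octRep g : Matrix (Fin 2) (Fin 2) ℂ).det = (detSign g : ℂ) := by
  have h := congrArg sqrtNegTwoC (det_octLift g)
  rw [map_intCast, RingHom.map_det] at h
  exact h

theorem sqrtNegTwoC_injective : Function.Injective sqrtNegTwoC :=
  Zsqrtd.lift_injective _ fun n h => by nlinarith

end Fermat.Agent.LT.C4
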