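import Mathlib.Algebra.MonoidAlgebra.Basic
import Mathlib.LinearAlgebra.Matrix.Trace
import Mathlib.LinearAlgebra.Matrix.Determinant.Basic
import Mathlib.LinearAlgebra.Matrix.FiniteDimensional
import Mathlib.LinearAlgebra.FiniteDimensional.Lemmas
import Mathlib.LinearAlgebra.Matrix.StdBasis
import Mathlib.Tactic.LinearCombination

/-!
# Two-dimensional representations agreeing in trace on a subgroup of index two

If two representations `ρ θ : Γ → M₂(k)` have the same trace on the kernel `H` of a sign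
character and `θ(H)` spans `M₂(k)`, then `tr θ = c · tr ρ` off `H` with a constant `c = ±1`, and
`det ρ = det θ` everywhere.
-/

set_option autoImplicit false

noncomputable section

namespace Fermat.Agent.LT.C4

open Matrix

variable {k : Type*} [Field k] {Γ : Type*} [Group Γ]

local notation "M₂" => Matrix (Fin 2) (Fin 2) k

/-- The linear isomorphism of `M₂(k)` carrying `θ` to `ρ` on a subgroup where the traces agree. -/
theorem exists_transfer {H : Type*} [Monoid H] (ρ θ : H →* M₂)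
    (htr : ∀ h, (ρ h).trace = (θ h).trace)
    (hspan : Submodule.span k (Set.range θ) = ⊤) :
    ∃ L : M₂ →ₗ[k] M₂, Function.Surjective L ∧ (∀ a b, L (a * b) = L a * L b) ∧
      (∀ a, (L a).trace = a.trace) ∧ ∀ h, L (θ h) = ρ h := by
  classical
  let Fθ := MonoidAlgebra.lift k M₂ H θ
  let Fρ := MonoidAlgebra.lift k M₂ H ρ
  have hT : ∀ x, (Fρ x).trace = (Fθ x).trace := by
    intro x
    induction x using MonoidAlgebra.induction_on with
    | of h => simpa [Fθ, Fρ] using htr h
    | add x y hx hy => rw [map_add, map_add, trace_add, trace_add, hx, hy]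
    | smul c x hx => rw [map_smul, map_smul, trace_smul, trace_smul, hx]
  have hsurj : LinearMap.range Fθ.toLinearMap = ⊤ := by
    rw [eq_top_iff, ← hspan, Submodule.span_le]
    rintro _ ⟨h, rfl⟩
    exact ⟨MonoidAlgebra.of k H h, by simp [Fθ]⟩
  obtain ⟨s, hs⟩ := Fθ.toLinearMap.exists_rightInverse_of_surjective hsurj
  have hs' : ∀ a, Fθ (s a) = a := fun a => LinearMap.congr_fun hs a
  let L : M₂ →ₗ[k] M₂ := Fρ.toLinearMap.comp s
  have hLL : ∀ a b, (L a * L b).trace = (a * b).trace := fun a b => by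
    show (Fρ (s a) * Fρ (s b)).trace = _
    rw [← map_mul, hT, map_mul, hs', hs']
  have hnondeg : ∀ a : M₂, (∀ b : M₂, (a * b).trace = 0) → a = 0 := fun a ha => by
    ext i j
    simpa [Matrix.trace_mul_single] using ha (Matrix.single j i 1)
  have hinj : Function.Injective L := by
    rw [injective_iff_map_eq_zero]
    exact fun a ha => hnondeg a fun b => by rw [← hLL, ha, zero_mul, trace_zero]
  have hLsurj : Function.Surjective L := LinearMap.surjective_of_injective hinj
  have hker : ∀ x, L (Fθ x) = Fρ x := fun x => by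
    refine sub_eq_zero.1 (hnondeg _ fun b => ?_)
    obtain ⟨b, rfl⟩ := hLsurj b
    rw [sub_mul, trace_sub, hLL]
    show (Fθ x * b).trace - (Fρ x * Fρ (s b)).trace = 0
    rw [← map_mul Fρ, hT, map_mul, hs', sub_self]
  refine ⟨L, hLsurj, fun a b => ?_, fun a => ?_, fun h => ?_⟩
  · show L (a * b) = Fρ (s a) * Fρ (s b)
    rw [← map_mul Fρ, ← hker, map_mul Fθ, hs', hs']
  · show (Fρ (s a)).trace = _
    rw [hT, hs']
  · simpa [Fθ, Fρ] using hker (MonoidAlgebra.of k H h)

/-- Trace agreement on an index two subgroup with spanning image forces agreement up to one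
global sign. -/
theorem trace_det_of_trace_eq_on_ker (h2 : (2 : k) ≠ 0) (s : Γ →* ℤˣ) (ρ θ : Γ →* M₂)
    (htr : ∀ σ, s σ = 1 → (ρ σ).trace = (θ σ).trace)
    (hspan : Submodule.span k (θ '' {σ | s σ = 1}) = ⊤) :
    (∀ σ, (ρ σ).det = (θ σ).det) ∧
      ∃ c : k, (c = 1 ∨ c = -1) ∧ ∀ σ, s σ ≠ 1 → (ρ σ).trace = c * (θ σ).trace := by
  have hsq : ∀ σ, s (σ * σ) = 1 := fun σ => by rw [map_mul, Int.units_mul_self]
  let H := s.ker
  obtain ⟨L, hLsurj, hLmul, hLtr, hLθ⟩ := exists_transfer (ρ.comp H.subtype) (θ.comp H.subtype)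
    (fun h => htr h.1 h.2) (by
      rw [← hspan]
      congr 1
      ext a
      exact ⟨fun ⟨h, e⟩ => ⟨h.1, h.2, e⟩, fun ⟨σ, hσ, e⟩ => ⟨⟨σ, hσ⟩, e⟩⟩)
  have hLθ' : ∀ σ, s σ = 1 → L (θ σ) = ρ σ := fun σ hσ => hLθ ⟨σ, hσ⟩
  by_cases hex : ∃ τ, s τ ≠ 1
  · obtain ⟨τ, hτ⟩ := hex
    have hinv : ∀ σ, ρ σ * ρ σ⁻¹ = 1 := fun σ => by rw [← map_mul, mul_inv_cancel, map_one]
    have hcomm : ∀ a : M₂, ρ τ⁻¹ * L (θ τ) * L a = L a * (ρ τ⁻¹ * L (θ τ)) := by
      intro a
      have ha : a ∈ Submodule.span k (θ '' {σ | s σ = 1}) := hspan ▸ Submodule.mem_top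
      induction ha using Submodule.span_induction with
      | mem a ha =>
        obtain ⟨σ, hσ, rfl⟩ := ha
        have hσ' : s (τ * σ * τ⁻¹) = 1 := by
          rw [map_mul, map_mul, show s σ = 1 from hσ, mul_one, ← map_mul, mul_inv_cancel,
            map_one]
        have e1 : L (θ τ) * L (θ σ) = ρ (τ * σ * τ⁻¹) * L (θ τ) := by
          rw [← hLmul, ← map_mul, show τ * σ = τ * σ * τ⁻¹ * τ by group, map_mul, hLmul,
            hLθ' _ hσ', show τ * σ * τ⁻¹ * τ * τ⁻¹ = τ * σ * τ⁻¹ by group]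
        rw [mul_assoc, e1, hLθ' σ hσ, ← mul_assoc, ← map_mul ρ, ← mul_assoc (ρ σ), ← map_mul ρ]
        congr 2
        group
      | zero => simp
      | add x y _ _ hx hy => rw [map_add, mul_add, add_mul, hx, hy]
      | smul c x _ hx => rw [map_smul, Matrix.mul_smul, Matrix.smul_mul, hx]
    obtain ⟨c, hc⟩ : ρ τ⁻¹ * L (θ τ) ∈ Set.range (Matrix.scalar (Fin 2)) := by
      refine Matrix.mem_range_scalar_iff_commute_single'.2 fun i j => ?_
      obtain ⟨a, ha⟩ := hLsurj (Matrix.single i j 1)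
      rw [← ha]
      exact (hcomm a).symm
    have hX : L (θ τ) = c • ρ τ := by
      calc L (θ τ) = ρ τ * (ρ τ⁻¹ * L (θ τ)) := by rw [← mul_assoc, hinv, one_mul]
        _ = c • ρ τ := by
          rw [← hc, Matrix.scalar_apply, ← Matrix.smul_one_eq_diagonal, Matrix.mul_smul, mul_one]
    have hc2 : c * c = 1 := by
      have e := hLθ' (τ * τ) (hsq τ)
      rw [map_mul, hLmul, hX, Matrix.smul_mul, Matrix.mul_smul, smul_smul, ← map_mul] at e
      have e' := congrArg (fun M : M₂ => M * ρ (τ * τ)⁻¹) e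
      simp only [Matrix.smul_mul, hinv] at e'
      simpa using congrFun (congrFun e' 0) 0
    have hpm : c = 1 ∨ c = -1 := mul_self_eq_one_iff.1 hc2
    have key : ∀ σ, s σ ≠ 1 → (ρ σ).trace = c * (θ σ).trace := by
      intro σ hσ
      have hτσ : s (τ⁻¹ * σ) = 1 := by
        rw [map_mul, map_inv, Int.units_inv_eq_self]
        rcases Int.units_eq_one_or (s τ) with h | h
        · exact absurd h hτ
        rcases Int.units_eq_one_or (s σ) with h' | h'
        · exact absurd h' hσ
        rw [h, h']; decide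
      have e : L (θ σ) = c • ρ σ := by
        rw [show σ = τ * (τ⁻¹ * σ) by group, map_mul, hLmul, hX, hLθ' _ hτσ, Matrix.smul_mul,
          ← map_mul]
      have := hLtr (θ σ)
      rw [e, trace_smul, smul_eq_mul] at this
      rw [← this, ← mul_assoc, hc2, one_mul]
    refine ⟨fun σ => ?_, c, hpm, key⟩
    have e1 : (ρ σ).trace ^ 2 = (θ σ).trace ^ 2 := by
      by_cases hσ : s σ = 1
      · rw [htr σ hσ]
      · rw [key σ hσ, mul_pow, sq c, hc2, one_mul]
    have e2 := htr _ (hsq σ)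
    rw [map_mul, map_mul] at e2
    refine mul_left_cancel₀ h2 ?_
    simp only [Matrix.trace_fin_two, Matrix.det_fin_two, Matrix.mul_apply, Fin.sum_univ_two]
      at e1 e2 ⊢
    linear_combination e1 - e2
  · push Not at hex
    refine ⟨fun σ => ?_, 1, Or.inl rfl, fun σ hσ => absurd (hex σ) hσ⟩
    have e1 := htr σ (hex σ)
    have e2 := htr _ (hsq σ)
    rw [map_mul, map_mul] at e2
    refine mul_left_cancel₀ h2 ?_
    simp only [Matrix.trace_fin_two, Matrix.det_fin_two, Matrix.mul_apply, Fin.sum_univ_two]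
      at e1 e2 ⊢
    linear_combination ((ρ σ 0 0 + ρ σ 1 1) + (θ σ 0 0 + θ σ 1 1)) * e1 - e2

end Fermat.Agent.LT.C4
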