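import Fermat.Agent.LT.C4.Lift
import Mathlib.LinearAlgebra.Matrix.FiniteDimensional
import Mathlib.LinearAlgebra.FiniteDimensional.Lemmas
import Mathlib.Tactic.Module

/-!
# `θ(SL₂(𝔽₃))` spans `M₂(ℂ)`
-/

set_option autoImplicit false

noncomputable section

namespace Fermat.Agent.LT.C4

open Matrix

instance factPrimeThree_ltC4 : Fact (Nat.Prime 3) := ⟨Nat.prime_three⟩

/-- An element of `SL₂(𝔽₃)` as a member of `GL₂`. -/
def mkGL3 (A : Matrix (Fin 2) (Fin 2) (ZMod 3)) (h : A.det = 1) : GL (Fin 2) (ZMod 3) :=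
  GeneralLinearGroup.mkOfDetNeZero A (by rw [h]; exact one_ne_zero)

theorem octRep_coe (g : GL (Fin 2) (ZMod 3)) :
    (octRep g : Matrix (Fin 2) (Fin 2) ℂ) =
      (Quad.toMat (liftQuad (g 0 0) (g 0 1) (g 1 0) (g 1 1))).map sqrtNegTwoC := rfl

theorem span_octRep_det_one :
    Submodule.span ℂ ((fun g : GL (Fin 2) (ZMod 3) => (octRep g : Matrix (Fin 2) (Fin 2) ℂ)) ''
      {g | (g : Matrix (Fin 2) (Fin 2) (ZMod 3)).det = 1}) = ⊤ := by
  set S := (fun g : GL (Fin 2) (ZMod 3) => (octRep g : Matrix (Fin 2) (Fin 2) ℂ)) ''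
      {g | (g : Matrix (Fin 2) (Fin 2) (ZMod 3)).det = 1}
  set u := mkGL3 !![2, 1; 2, 0] (by decide) with hu
  set j := mkGL3 !![1, 1; 1, 2] (by decide) with hj
  set v : Fin 4 → GL (Fin 2) (ZMod 3) := ![1, u, j, u * j] with hv
  have hmem : ∀ i, (octRep (v i) : Matrix (Fin 2) (Fin 2) ℂ) ∈ S := fun i =>
    ⟨v i, by fin_cases i <;> simp only [hv, hu, hj, Set.mem_ofPred_eq] <;> decide, rfl⟩
  set s : ℂ := sqrtNegTwoC ⟨0, 1⟩ with hs
  have hs2 : s * s = -2 := by rw [hs, ← map_mul]; simp [sqrtNegTwoC, Zsqrtd.lift]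
  have hz : ∀ a b : ℤ, sqrtNegTwoC ⟨a, b⟩ = (a : ℂ) + b * s := fun a b => by
    simp [hs, sqrtNegTwoC, Zsqrtd.lift]
  have q1 : liftQuad (v 1 0 0) (v 1 0 1) (v 1 1 0) (v 1 1 1) =
      (⟨⟨-1, 0⟩, ⟨1, 0⟩, ⟨-1, 0⟩, ⟨0, 0⟩⟩ : Quad) := by decide +kernel
  have q2 : liftQuad (v 2 0 0) (v 2 0 1) (v 2 1 0) (v 2 1 1) =
      (⟨⟨1, 0⟩, ⟨0, -1⟩, ⟨0, -1⟩, ⟨-1, 0⟩⟩ : Quad) := by decide +kernel
  have q3 : liftQuad (v 3 0 0) (v 3 0 1) (v 3 1 0) (v 3 1 1) =
      (⟨⟨-1, -1⟩, ⟨-1, 1⟩, ⟨-1, 0⟩, ⟨0, 1⟩⟩ : Quad) := by decide +kernel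
  have hli : LinearIndependent ℂ fun i => (octRep (v i) : Matrix (Fin 2) (Fin 2) ℂ) := by
    rw [Fintype.linearIndependent_iff]
    intro c hc
    rw [Fin.sum_univ_four, show v 0 = 1 from rfl, map_one, Units.val_one, octRep_coe (v 1),
      octRep_coe (v 2), octRep_coe (v 3), q1, q2, q3] at hc
    have e00 := congrFun (congrFun hc 0) 0
    have e01 := congrFun (congrFun hc 0) 1
    have e10 := congrFun (congrFun hc 1) 0
    have e11 := congrFun (congrFun hc 1) 1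
    simp [Quad.toMat, hz] at e00 e01 e10 e11
    have h3 : c 3 = 0 := by
      refine (mul_eq_zero.1 (?_ : (2 : ℂ) * c 3 = 0)).resolve_left two_ne_zero
      linear_combination (2 + s) * (e01 + e10) + 2 * s * (e00 - e11 - e10) + 3 * c 3 * hs2
    simp only [h3, zero_mul, add_zero] at e00 e01 e10 e11
    have h2 : c 2 = 0 := by
      refine (mul_eq_zero.1 (?_ : (4 : ℂ) * c 2 = 0)).resolve_left (by norm_num)
      linear_combination s * (e01 + e10) + 2 * c 2 * hs2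
    simp only [h2, zero_mul, add_zero] at e00 e01 e10 e11
    have h1 : c 1 = 0 := by linear_combination e01
    have h0 : c 0 = 0 := by linear_combination e11
    intro i
    fin_cases i <;> assumption
  refine eq_top_iff.2 ((hli.span_eq_top_of_card_eq_finrank ?_).ge.trans
    (Submodule.span_mono (Set.range_subset_iff.2 hmem)))
  simp [Module.finrank_matrix]

end Fermat.Agent.LT.C4
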