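import Fermat.Agent.DS.Chebotarev
import Fermat.Agent.DS.PrimeDensity
import Fermat.Agent.Galois.Decomposition
import Fermat.Agent.LT.C4.GroupLemma
import Fermat.Agent.LT.C4.Span
import Fermat.Prelude.Def_ModularForm_EisensteinChiNegThree

/-!
# From trace equality on almost all split primes to all Frobenius traces
-/

set_option autoImplicit false

noncomputable section

namespace Fermat.Agent.LT.C4

open DS Matrix EisensteinWeightOne

/-- Chebotarev avoiding a set of density zero: every element of a finite quotient is conjugate to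
a Frobenius element of a prime outside the set. -/
theorem exists_frobenius_conj_notMem {G : Type} [Group G] [Finite G] (ρ : GalQ →* G)
    (hfac : GaloisFactorsThroughFiniteLevel ρ) (hsurj : Function.Surjective ρ) (g : G)
    {T : Set ℕ} (hT : PrimeDensityLE T 0) :
    ∃ p : ℕ, p.Prime ∧ p ∉ T ∧ ∃ A : ValuationSubring (AlgebraicClosure ℚ), A.LiesOverPrime p ∧
      ∃ σ : GalQ, A.IsFrobeniusAt σ p ∧ IsConj g (ρ σ) := by
  obtain ⟨D, hD⟩ := chebotarev_lower ρ hfac hsurj g (δ := 1 / 2) (by norm_num)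
  obtain ⟨C, hC⟩ := hT
  set c : ℝ := (1 - 1 / 2) * ((Nat.card (conjugatesOf g) : ℝ) / Nat.card G) with hc
  have : Nonempty (conjugatesOf g) := ⟨⟨g, mem_conjugatesOf_self⟩⟩
  have hcpos : 0 < c := by
    have h1 : (0 : ℝ) < Nat.card (conjugatesOf g) := Nat.cast_pos.2 Nat.card_pos
    have h2 : (0 : ℝ) < Nat.card G := Nat.cast_pos.2 Nat.card_pos
    rw [hc]; positivity
  set K : ℝ := max 0 ((D + C + 1) / c) with hK
  have hs1 : 1 < 1 + Real.exp (-K) := by linarith [Real.exp_pos (-K)]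
  have hs2 : 1 + Real.exp (-K) ≤ 2 := by
    have : Real.exp (-K) ≤ 1 := Real.exp_le_one_iff.2 (by rw [neg_nonpos]; exact le_max_left _ _)
    linarith
  obtain ⟨P, hP, hsum⟩ := hD _ hs1 hs2
  have hlog : Real.log (1 / (1 + Real.exp (-K) - 1)) = K := by
    rw [add_sub_cancel_left, one_div, ← Real.exp_neg, Real.log_exp, neg_neg]
  rw [hlog] at hsum
  by_contra! hcon
  have hPT : ∀ p ∈ P, p.Prime ∧ p ∈ T := fun p hp => by
    obtain ⟨hpp, hfrob⟩ := hP p hp
    refine ⟨hpp, ?_⟩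
    obtain ⟨A, σ, hA, hσ⟩ := Galois.exists_place_isFrobeniusAt hpp
    by_contra hpT
    exact hcon p hpp hpT A hA σ hσ (hfrob A hA σ hσ)
  have hle := hC _ hs1 hs2 P hPT
  rw [zero_mul, zero_add] at hle
  have hcK : D + C + 1 ≤ c * K := by
    rw [mul_comm, ← div_le_iff₀ hcpos]
    exact le_max_right _ _
  linarith

/-- A representation factoring through a finite level has finite image. -/
theorem finite_range_of_factors {M : Type} [Group M] (ρ : GalQ →* M)
    (h : GaloisFactorsThroughFiniteLevel ρ) : Finite ρ.range := by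
  obtain ⟨L, hL, e⟩ := h
  let r : ρ.range → (L →ₐ[ℚ] AlgebraicClosure ℚ) := fun m =>
    (m.2.choose : AlgebraicClosure ℚ →ₐ[ℚ] AlgebraicClosure ℚ).comp L.val
  refine Finite.of_injective r fun m m' hmm => Subtype.ext ?_
  rw [← m.2.choose_spec, ← m'.2.choose_spec, ← inv_mul_eq_one, ← map_inv, ← map_mul]
  refine e _ fun x hx => ?_
  have hx' : m.2.choose x = m'.2.choose x := DFunLike.congr_fun hmm ⟨x, hx⟩
  rw [AlgEquiv.mul_apply, ← hx']
  exact AlgEquiv.symm_apply_apply _ _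

/-- The two embeddings, indexed by a sign. -/
def iotaSign (b : Bool) : ℤ√(-2) →+* ℂ := if b then sqrtNegTwoC else sqrtNegTwoC.comp (starRingEnd (ℤ√(-2)))

theorem chiNegThree_eq_of_cast {p : ℕ} (hp : ¬ 3 ∣ p) :
    chiNegThree p = if (p : ZMod 3) = 1 then 1 else -1 := by
  have h3 := ZMod.natCast_mod p 3
  rw [chiNegThree]
  rcases (by omega : p % 3 = 1 ∨ p % 3 = 2) with h | h <;> rw [h] at h3 <;> rw [h, ← h3] <;> simp
  decide

/-- If the traces of `ρ` and `θ ∘ ρ₃` agree at almost all primes `≡ 1 mod 3`, then at every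
Frobenius element the trace of `ρ` is that of the lift in one fixed embedding and the
determinant is the sign of `det ρ₃`. -/
theorem exists_sign_trace_det (ρ : GalQ →* GL (Fin 2) ℂ) (hρ : GaloisFactorsThroughFiniteLevel ρ)
    (ρ₃ : GalQ →* GL (Fin 2) (ZMod 3)) (hρ₃ : GaloisFactorsThroughFiniteLevel ρ₃)
    (hsurj : Function.Surjective ρ₃) {T : Set ℕ} (hT : PrimeDensityLE T 0)
    (hp : ∀ p : ℕ, p.Prime → p ∉ T → ∀ A : ValuationSubring (AlgebraicClosure ℚ),
      A.LiesOverPrime p → ∀ σ : GalQ, A.IsFrobeniusAt σ p →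
        (ρ₃ σ : Matrix (Fin 2) (Fin 2) (ZMod 3)).det = 1 →
        (ρ σ : Matrix (Fin 2) (Fin 2) ℂ).trace =
          sqrtNegTwoC (octLift (ρ₃ σ) : Matrix (Fin 2) (Fin 2) (ℤ√(-2))).trace) :
    ∃ b : Bool, ∀ σ : GalQ,
      (ρ σ : Matrix (Fin 2) (Fin 2) ℂ).trace =
          iotaSign b (octLift (ρ₃ σ) : Matrix (Fin 2) (Fin 2) (ℤ√(-2))).trace ∧
        (ρ σ : Matrix (Fin 2) (Fin 2) ℂ).det = (detSign (ρ₃ σ) : ℂ) := by
  let J := ρ.prod ρ₃
  have hJ : GaloisFactorsThroughFiniteLevel J := by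
    obtain ⟨L₁, h₁, e₁⟩ := hρ
    obtain ⟨L₂, h₂, e₂⟩ := hρ₃
    refine ⟨L₁ ⊔ L₂, IntermediateField.finiteDimensional_sup L₁ L₂, fun σ hσ => ?_⟩
    exact Prod.ext (e₁ σ fun x hx => hσ x (le_sup_left (b := L₂) hx))
      (e₂ σ fun x hx => hσ x (le_sup_right (a := L₁) hx))
  have : Finite J.range := finite_range_of_factors J hJ
  have hJ' : GaloisFactorsThroughFiniteLevel J.rangeRestrict := by
    obtain ⟨L, hL, e⟩ := hJ
    exact ⟨L, hL, fun σ hσ => Subtype.ext (e σ hσ)⟩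
  have htr : ∀ σ : GalQ, (ρ₃ σ : Matrix (Fin 2) (Fin 2) (ZMod 3)).det = 1 →
      (ρ σ : Matrix (Fin 2) (Fin 2) ℂ).trace = (octRep (ρ₃ σ) : Matrix (Fin 2) (Fin 2) ℂ).trace := by
    intro σ hσ
    obtain ⟨p, hpp, hpT, A, hA, τ, hτ, hconj⟩ := exists_frobenius_conj_notMem J.rangeRestrict hJ'
      J.rangeRestrict_surjective (J.rangeRestrict σ) hT
    obtain ⟨u, hu⟩ := isConj_iff.1 hconj
    obtain ⟨w, hw⟩ := J.rangeRestrict_surjective u
    subst hw
    have h1 : J (w * σ * w⁻¹) = J τ := by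
      simpa using congrArg Subtype.val hu
    have e₁ : ρ τ = ρ w * ρ σ * (ρ w)⁻¹ := by
      simpa [J] using (congrArg Prod.fst h1).symm
    have e₂ : ρ₃ τ = ρ₃ w * ρ₃ σ * (ρ₃ w)⁻¹ := by
      simpa [J] using (congrArg Prod.snd h1).symm
    have h := hp p hpp hpT A hA τ hτ (by
      rw [e₂, Units.val_mul, Units.val_mul, Matrix.coe_units_inv, Matrix.det_conj (Units.isUnit _),
        hσ])
    rw [← trace_octRep] at h
    rw [e₁, e₂, map_mul, map_mul, map_inv, Units.val_mul, Units.val_mul, Units.val_mul,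
      Units.val_mul, Matrix.trace_units_conj, Matrix.trace_units_conj] at h
    exact h
  let s : GalQ →* ℤˣ :=
    { toFun := fun σ => if (ρ₃ σ : Matrix (Fin 2) (Fin 2) (ZMod 3)).det = 1 then 1 else -1
      map_one' := by simp
      map_mul' := fun σ τ => by
        have key : ∀ a b : ZMod 3, a ≠ 0 → b ≠ 0 → (if a * b = 1 then (1 : ℤˣ) else -1) =
            (if a = 1 then 1 else -1) * (if b = 1 then 1 else -1) := by decide
        rw [map_mul, Units.val_mul, Matrix.det_mul]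
        exact key _ _ (Matrix.GeneralLinearGroup.det (ρ₃ σ)).ne_zero
          (Matrix.GeneralLinearGroup.det (ρ₃ τ)).ne_zero }
  have hs : ∀ σ, s σ = 1 ↔ (ρ₃ σ : Matrix (Fin 2) (Fin 2) (ZMod 3)).det = 1 := fun σ => by
    simp only [s, MonoidHom.coe_mk, OneHom.coe_mk]
    split_ifs with h <;> simp [h]
  obtain ⟨hdet, c, hc, hoff⟩ := trace_det_of_trace_eq_on_ker (k := ℂ) two_ne_zero s
    ((Units.coeHom _).comp ρ) (((Units.coeHom _).comp octRep).comp ρ₃)
    (fun σ hσ => htr σ ((hs σ).1 hσ)) (by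
      rw [← span_octRep_det_one]
      congr 1
      ext a
      constructor
      · rintro ⟨σ, hσ, rfl⟩
        exact ⟨ρ₃ σ, (hs σ).1 hσ, rfl⟩
      · rintro ⟨g, hg, rfl⟩
        obtain ⟨σ, rfl⟩ := hsurj g
        exact ⟨σ, (hs σ).2 hg, rfl⟩)
  simp only [MonoidHom.comp_apply, Units.coeHom_apply] at hdet hoff
  refine ⟨decide (c = 1), fun σ => ⟨?_, by rw [hdet, det_octRep]⟩⟩
  set z := (octLift (ρ₃ σ) : Matrix (Fin 2) (Fin 2) (ℤ√(-2))).trace with hz
  have hstar : star z = detSign (ρ₃ σ) * z := star_trace_octLift _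
  have hb : ∀ w : ℤ√(-2), iotaSign (decide (c = 1)) w = if c = 1 then sqrtNegTwoC w else sqrtNegTwoC (star w) :=
    fun w => by
      by_cases h : c = 1 <;> simp [iotaSign, h, starRingEnd_apply]
  by_cases hσ : s σ = 1
  · rw [htr σ ((hs σ).1 hσ), trace_octRep, hb, ← hz]
    have : star z = z := by rw [hstar, detSign, if_pos ((hs σ).1 hσ), Int.cast_one, one_mul]
    rw [this, ite_self]
  · rw [hoff σ hσ, trace_octRep, hb, ← hz]
    rcases hc with rfl | rfl
    · simp
    · have hd : detSign (ρ₃ σ) = -1 := if_neg fun h => hσ ((hs σ).2 h)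
      rw [if_neg (by norm_num), hstar, hd]
      simp

end Fermat.Agent.LT.C4
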