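import Fermat.Agent.MOD.DeligneSerreLift
import Fermat.Agent.Newforms.Eigen

/-!
# Lifting an eigensystem modulo `r` given only away from the level
-/

set_option autoImplicit false

noncomputable section

namespace Fermat.Agent.LT.C4

open ModularFormClass CongruenceSubgroup MOD

/-- The Deligne–Serre lifting lemma with congruences only at the primes not dividing the level. -/
theorem exists_eigenform_congr_away {M : ℕ} [NeZero M] (hstr : CuspForm.HasIntegralStructure M 2)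
    {r : ℕ} (hr : r.Prime) {h : CuspForm (Gamma0 M) 2} {af b : ℕ → ℤ}
    (haf : ∀ n, qCoeff h n = af n) {n₀ : ℕ} (h0 : ¬ (r : ℤ) ∣ af n₀)
    (hgen : ∀ p : ℕ, p.Prime → ¬ p ∣ M → ∀ n : ℕ, (r : ℤ) ∣
      af (n * p) + (if p ∣ n then (p : ℤ) * af (n / p) else 0) - b p * af n) :
    ∃ (g : CuspForm (Gamma0 M) 2) (_ : g.IsNormalizedEigenform)
      (𝔪' : Ideal (integralClosure ℤ ℂ)), 𝔪'.IsMaximal ∧ (r : integralClosure ℤ ℂ) ∈ 𝔪' ∧
      ∀ p : ℕ, p.Prime → ¬ p ∣ M → ∃ c : integralClosure ℤ ℂ, (c : ℂ) = qCoeff g p ∧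
        c - (b p : integralClosure ℤ ℂ) ∈ 𝔪' := by
  have := cuspForm_finiteDimensional (N := M) (k := 2)
  set S : Set ℕ := {p | p ∣ M}
  have : Module.Finite ℤ (CuspForm.heckeAlgebra M 2 S) :=
    heckeAlgebra_moduleFinite (by norm_num) hstr S
  have := Fact.mk hr
  have hTf : ∀ (p : ℕ) (hp : p.Prime) (hpM : ¬ p ∣ M),
      CongMul r af (CuspForm.heckeTLin 2 hp hpM h) (b p) := by
    intro p hp hpM
    refine ⟨fun n => af (n * p) + (if p ∣ n then (p : ℤ) * af (n / p) else 0), fun n => ?_,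
      hgen p hp hpM⟩
    rw [qCoeff_heckeTLin hp hpM, haf, haf, show (2 : ℤ) - 1 = 1 by norm_num, zpow_one]
    by_cases hpn : p ∣ n <;> simp [hpn]
  have hle : CuspForm.heckeAlgebra M 2 S ≤ CuspForm.heckeAlgebra M 2 ∅ := by
    refine Algebra.adjoin_mono ?_
    rintro s (⟨p, hp, hpM, -, rfl⟩ | ⟨p, hpM, hp, -, rfl⟩)
    · exact Or.inl ⟨p, hp, hpM, Set.notMem_empty _, rfl⟩
    · exact Or.inr ⟨p, hpM, hp, Set.notMem_empty _, rfl⟩
  have hall : ∀ t ∈ CuspForm.heckeAlgebra M 2 S, ∃ c : ℤ, CongMul r af (t h) c := by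
    intro t ht
    induction ht using Algebra.adjoin_induction with
    | mem x hx =>
      rcases hx with ⟨p, hp, hpM, -, rfl⟩ | ⟨p, hpM, hp, hpS, rfl⟩
      · exact ⟨_, hTf p hp hpM⟩
      · exact absurd hpM hpS
    | algebraMap z => exact ⟨z, congMul_algebraMap haf z⟩
    | add x y _ _ hx hy =>
      obtain ⟨c, hc⟩ := hx
      obtain ⟨d, hd⟩ := hy
      exact ⟨c + d, by simpa using congMul_add hc hd⟩
    | mul x y hx' _ hx hy =>
      obtain ⟨c, hc⟩ := hx
      obtain ⟨d, hd⟩ := hy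
      exact ⟨c * d, congMul_comp hr.ne_zero haf (hle hx') hc hd⟩
  have haf0 : (af n₀ : ZMod r) ≠ 0 := fun e =>
    h0 ((ZMod.intCast_zmod_eq_zero_iff_dvd _ r).1 e)
  choose c hc using fun t : CuspForm.heckeAlgebra M 2 S => hall t.1 t.2
  have huniq : ∀ (t : CuspForm.heckeAlgebra M 2 S) (d : ℤ), CongMul r af (t.1 h) d →
      (c t : ZMod r) = d := by
    intro t d hd
    obtain ⟨u, hu, hu'⟩ := hc t
    obtain ⟨v, hv, hv'⟩ := hd
    have huv : u n₀ = v n₀ := Int.cast_injective (α := ℂ) ((hu n₀).symm.trans (hv n₀))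
    have e1 := (ZMod.intCast_zmod_eq_zero_iff_dvd _ r).2 (hu' n₀)
    have e2 := (ZMod.intCast_zmod_eq_zero_iff_dvd _ r).2 (hv' n₀)
    push_cast [sub_eq_zero] at e1 e2
    refine mul_right_cancel₀ haf0 ?_
    rw [← e1, ← e2, huv]
  let φ : CuspForm.heckeAlgebra M 2 S →+* ZMod r :=
    { toFun := fun t => c t
      map_one' := by simpa using huniq 1 1 (by simpa using congMul_algebraMap haf 1)
      map_mul' := fun s t => (huniq (s * t) (c s * c t)
        (congMul_comp hr.ne_zero haf (hle s.2) (hc s) (hc t))).trans (Int.cast_mul _ _)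
      map_zero' := by simpa using huniq 0 0 (by simpa using congMul_algebraMap haf 0)
      map_add' := fun s t => by
        rw [huniq (s + t) (c s + c t) (congMul_add (hc s) (hc t)), Int.cast_add] }
  have hφT : ∀ (p : ℕ) (hp : p.Prime) (hpM : ¬ p ∣ M),
      φ (CuspForm.heckeAlgebra.T hp hpM (S := S) hpM) = b p := fun p hp hpM =>
    huniq _ (b p) (hTf p hp hpM)
  let 𝔪 := RingHom.ker φ
  have hsurj : Function.Surjective φ := fun z => by
    obtain ⟨m, rfl⟩ := ZMod.intCast_surjective z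
    exact ⟨(m : CuspForm.heckeAlgebra M 2 S), map_intCast φ m⟩
  have h𝔪 : 𝔪.IsMaximal := RingHom.ker_isMaximal_of_surjective φ hsurj
  let act : CuspForm.heckeAlgebra M 2 S →+* Module.End ℂ (CuspForm (Gamma0 M) 2) :=
    (CuspForm.heckeAlgebra M 2 S).val.toRingHom
  obtain ⟨g, lam, hg, hlam, hker⟩ := exists_eigvec_ker_le act 𝔪 (fun t ht => by
    have : t = 0 := Subtype.ext ht
    simp [this])
  have hint : ∀ t, lam t ∈ integralClosure ℤ ℂ := fun t =>
    (Algebra.IsIntegral.isIntegral (R := ℤ) t).map lam.toIntAlgHom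
  let lam' : CuspForm.heckeAlgebra M 2 S →+* integralClosure ℤ ℂ :=
    lam.codRestrict (integralClosure ℤ ℂ) hint
  let := lam'.toAlgebra
  have : Algebra.IsIntegral (CuspForm.heckeAlgebra M 2 S) (integralClosure ℤ ℂ) :=
    ⟨fun x => (Algebra.IsIntegral.isIntegral (R := ℤ) x).tower_top⟩
  obtain ⟨𝔪', h𝔪', hcomap⟩ := Ideal.exists_ideal_over_maximal_of_isIntegral
    (S := integralClosure ℤ ℂ) 𝔪 (fun t ht => hker (congrArg Subtype.val ht))
  have hmem : ∀ t, t ∈ 𝔪 → lam' t ∈ 𝔪' := fun t ht => by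
    rw [← hcomap] at ht
    exact ht
  let ev : ℕ → ℂ := fun p => if h : p.Prime ∧ ¬ p ∣ M then
    lam (CuspForm.heckeAlgebra.T h.1 h.2 (S := S) h.2) else 0
  obtain ⟨F, hF, hFev⟩ := Newforms.exists_isNormalizedEigenform_of_eigenvector ∅ ev g hg
    (fun p hp hpM _ => by
      rw [show ev p = _ from dif_pos ⟨hp, hpM⟩]
      exact hlam (CuspForm.heckeAlgebra.T hp hpM (S := S) hpM))
  refine ⟨F, hF, 𝔪', h𝔪', ?_, fun p hp hpM =>
    ⟨lam' (CuspForm.heckeAlgebra.T hp hpM (S := S) hpM), ?_, ?_⟩⟩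
  · have := hmem (r : CuspForm.heckeAlgebra M 2 S) (by
      rw [RingHom.mem_ker, map_natCast, ZMod.natCast_self])
    rwa [map_natCast] at this
  · rw [hFev p hp hpM (Set.notMem_empty _), show ev p = _ from dif_pos ⟨hp, hpM⟩]
    rfl
  · have hb : CuspForm.heckeAlgebra.T hp hpM (S := S) hpM - (b p : CuspForm.heckeAlgebra M 2 S)
        ∈ 𝔪 := by
      rw [RingHom.mem_ker, map_sub, map_intCast, hφT p hp hpM, sub_self]
    have := hmem _ hb
    rwa [map_sub, map_intCast] at this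

end Fermat.Agent.LT.C4
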