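import Fermat.Agent.LT.C4.HexTheta
import Fermat.Agent.Newforms.Basic

/-!
# The weight two form `f · hexFun`
-/

set_option autoImplicit false

noncomputable section

namespace Fermat.Agent.LT.C4

open UpperHalfPlane ModularFormClass CongruenceSubgroup
open scoped MatrixGroups ModularForm Manifold

/-- A weight one cusp form times the theta series, of trivial nebentypus on `Γ₀(M)`. -/
theorem exists_weightTwo_product {N M : ℕ} [NeZero N] [NeZero M] (h3 : 3 ∣ M)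
    (f : CuspForm (Gamma1 N) 1) (e : SL(2, ℤ) → ℂ)
    (hneb : ∀ γ ∈ Gamma0 M, (⇑f) ∣[(1 : ℤ)] γ = e γ • ⇑f)
    (he : ∀ γ ∈ Gamma0 M, e γ * hexSign γ = 1) :
    ∃ h : CuspForm (Gamma0 M) 2,
      qExpansion 1 (⇑h) = qExpansion 1 (⇑f) * qExpansion 1 hexFun := by
  have hle : ∀ γ ∈ Gamma0 M, γ ∈ Gamma0 3 := fun γ hγ => by
    rw [Gamma0_mem] at hγ ⊢
    rw [ZMod.intCast_zmod_eq_zero_iff_dvd] at hγ ⊢
    exact (Int.natCast_dvd_natCast.2 h3).trans hγ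
  have hcusp : Newforms.IsCuspidal ((⇑f) * hexFun) := by
    refine ⟨(CuspFormClass.holo f).mul mdiff_hexFun, fun c hc => ?_⟩
    rw [OnePoint.isZeroAt_iff_forall_SL2Z hc]
    intro γ hγ
    have hfz : IsZeroAtImInfty ((⇑f) ∣[(1 : ℤ)] γ) :=
      (OnePoint.isZeroAt_iff_forall_SL2Z hc).1
        (CuspFormClass.zero_at_cusps f ((Subgroup.IsArithmetic.isCusp_iff_isCusp_SL2Z _).2 hc)) γ hγ
    have h2 : ((⇑f) * hexFun) ∣[(2 : ℤ)] γ =
        ((⇑f) ∣[(1 : ℤ)] γ) * (hexFun ∣[(1 : ℤ)] γ) :=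
      ModularForm.mul_slash_SL2 1 1 γ _ _
    rw [h2]
    exact Filter.Tendsto.zero_mul_isBoundedUnder_le hfz
      (isBoundedAtImInfty_hexFun_slash γ).isBoundedUnder_le
  refine ⟨Newforms.mkForm M _ hcusp fun γ hγ => ?_, ?_⟩
  · rw [show ((⇑f) * hexFun) ∣[(2 : ℤ)] γ = ((⇑f) ∣[(1 : ℤ)] γ) * (hexFun ∣[(1 : ℤ)] γ) from
      ModularForm.mul_slash_SL2 1 1 γ _ _, hneb γ hγ, hexFun_slash_gamma0 (hle γ hγ),
      smul_mul_smul_comm, he γ hγ, one_smul]
  · rw [Newforms.coe_mkForm]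
    exact qExpansion_mul
      (MF.analyticAt_of_mem_qFunctions (MF.mem_qFunctions_of_form (by simp) f))
      (MF.analyticAt_of_mem_qFunctions hexFun_mem_qFunctions)

end Fermat.Agent.LT.C4
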