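import Fermat.Agent.LT.C4.Functional
import Fermat.Agent.LT.C4.LiftAway
import Fermat.Agent.LT.C4.Product
import Fermat.Agent.LT.C4.Frob
import Mathlib.NumberTheory.LSeries.PrimesInAP

/-!
# From a weight one eigensystem with values in `ℤ[√-2]` to a weight two one modulo `3`
-/

set_option autoImplicit false

noncomputable section

namespace Fermat.Agent.LT.C4

open ModularFormClass CongruenceSubgroup UpperHalfPlane EisensteinWeightOne
open scoped MatrixGroups ModularForm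

theorem iotaSign_mk (b : Bool) (x y : ℤ) :
    iotaSign b ⟨x, y⟩ = (x : ℂ) + y * iotaSign b ⟨0, 1⟩ := by
  rw [show (⟨x, y⟩ : ℤ√(-2)) = (x : ℤ√(-2)) + (y : ℤ√(-2)) * ⟨0, 1⟩ from
    Zsqrtd.ext (by simp) (by simp), map_add, map_mul, map_intCast, map_intCast]

theorem iotaSign_sqrtd_sq (b : Bool) : iotaSign b ⟨0, 1⟩ * iotaSign b ⟨0, 1⟩ = -2 := by
  rw [← map_mul, show (⟨0, 1⟩ : ℤ√(-2)) * ⟨0, 1⟩ = ((-2 : ℤ) : ℤ√(-2)) from
    Zsqrtd.ext (by simp) (by simp), map_intCast]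
  norm_num

/-- The weight two eigenform modulo `3`. -/
theorem exists_weightTwo_of_weightOne {N M : ℕ} [NeZero N] [NeZero M] (hNM : N ∣ M) (h3 : 3 ∣ M)
    (ε : DirichletCharacter ℂ N) (f : CuspForm (Gamma1 N) 1) (hf1 : qCoeff f 1 = 1)
    (hT : ∀ p : ℕ, p.Prime → ¬ p ∣ N → ∀ n : ℕ,
        qCoeff f (p * n) + ε (p : ZMod N) * (if p ∣ n then qCoeff f (n / p) else 0) =
          qCoeff f p * qCoeff f n)
    (hneb : ∀ g ∈ Gamma0 N, (⇑f) ∣[(1 : ℤ)] g = ε ((g 1 1 : ℤ) : ZMod N) • ⇑f)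
    (b : Bool) (x : ℕ → ℤ√(-2))
    (hx : ∀ p : ℕ, p.Prime → ¬ p ∣ M → qCoeff f p = iotaSign b (x p))
    (hε : ∀ p : ℕ, p.Prime → ¬ p ∣ M → ε (p : ZMod N) = (chiNegThree p : ℂ)) :
    ∃ (g : CuspForm (Gamma0 M) 2) (_ : g.IsNormalizedEigenform)
      (𝔪' : Ideal (integralClosure ℤ ℂ)), 𝔪'.IsMaximal ∧
      ((3 : ℕ) : integralClosure ℤ ℂ) ∈ 𝔪' ∧
      ∀ p : ℕ, p.Prime → ¬ p ∣ M → ∃ c : integralClosure ℤ ℂ, (c : ℂ) = qCoeff g p ∧
        c - (((x p).re - (x p).im : ℤ) : integralClosure ℤ ℂ) ∈ 𝔪' := by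
  have hdM : ∀ γ ∈ Gamma0 M, γ ∈ Gamma0 N := fun γ hγ => by
    rw [Gamma0_mem] at hγ ⊢
    rw [ZMod.intCast_zmod_eq_zero_iff_dvd] at hγ ⊢
    exact (Int.natCast_dvd_natCast.2 hNM).trans hγ
  have he : ∀ γ ∈ Gamma0 M, ε ((γ 1 1 : ℤ) : ZMod N) * hexSign γ = 1 := by
    intro γ hγ
    have hu : IsUnit ((γ 1 1 : ℤ) : ZMod M) := by
      have hc := (ZMod.intCast_zmod_eq_zero_iff_dvd _ M).1 (Gamma0_mem.1 hγ)
      have hdet : γ 0 0 * γ 1 1 - γ 0 1 * γ 1 0 = 1 := by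
        rw [← Matrix.det_fin_two γ.1]; exact γ.2
      refine IsUnit.of_mul_eq_one ((γ 0 0 : ℤ) : ZMod M) ?_
      have := congrArg (fun z : ℤ => (z : ZMod M)) hdet
      push_cast at this
      rw [Gamma0_mem.1 hγ, mul_zero, sub_zero, mul_comm] at this
      exact this
    obtain ⟨p, hpM, hp, hpd⟩ := Nat.forall_exists_prime_gt_and_eq_mod hu M
    have hpM' : ¬ p ∣ M := fun h => absurd (Nat.le_of_dvd (NeZero.pos M) h) (not_le.2 hpM)
    have hp3 : ¬ 3 ∣ p := fun h => hpM' (((Nat.prime_dvd_prime_iff_eq Nat.prime_three hp).1 h) ▸ h3)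
    have e1 := congrArg (ZMod.castHom hNM (ZMod N)) hpd
    have e2 := congrArg (ZMod.castHom h3 (ZMod 3)) hpd
    rw [map_natCast, map_intCast] at e1 e2
    rw [← e1, hε p hp hpM', chiNegThree_eq_of_cast hp3, hexSign, ← e2]
    split_ifs <;> simp
  obtain ⟨h, hq⟩ := exists_weightTwo_product h3 f (fun γ => ε ((γ 1 1 : ℤ) : ZMod N))
    (fun γ hγ => hneb γ (hdM γ hγ)) he
  obtain ⟨h', af, haf, ⟨n₀, hn₀⟩, hcong⟩ := exists_integral_form_congr h (fun n => qCoeff f n) hf1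
    (fun n => ((hexFib n).card : ℤ)) (by rw [hexFib_zero]; rfl)
    (fun n hn => Int.natCast_dvd_natCast.2 (three_dvd_card_hexFib hn))
    (fun n => by
      show (qExpansion 1 (⇑h)).coeff n = _
      rw [hq, PowerSeries.coeff_mul, Finset.Nat.sum_antidiagonal_eq_sum_range_succ_mk]
      refine Finset.sum_congr rfl fun i _ => ?_
      rw [qExpansion_hexFun, Int.cast_natCast]
      rfl)
    (iotaSign b ⟨0, 1⟩) (iotaSign_sqrtd_sq b)
  refine exists_eigenform_congr_away (MF.IntStruct.hasIntegralStructure M 2) Nat.prime_three haf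
    (n₀ := n₀) (by simpa using hn₀) (b := fun p => (x p).re - (x p).im) fun p hp hpM n => ?_
  have hpN : ¬ p ∣ N := fun h => hpM (h.trans hNM)
  have hp3 : ¬ 3 ∣ p := fun h => hpM (((Nat.prime_dvd_prime_iff_eq Nat.prime_three hp).1 h) ▸ h3)
  have hmod : (3 : ℤ) ∣ (p : ℤ) - chiNegThree p := by
    rw [chiNegThree]; split_ifs <;> omega
  have hrel := hT p hp hpN n
  rw [hε p hp hpM, hx p hp hpM, iotaSign_mk b (x p).re (x p).im] at hrel
  by_cases hpn : p ∣ n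
  · rw [if_pos hpn] at hrel ⊢
    obtain ⟨i, hi⟩ := hcong (p * n) (n / p) n (chiNegThree p) _ _ hrel
    obtain ⟨j, hj⟩ := hmod
    refine ⟨i + af (n / p) * j, ?_⟩
    rw [mul_comm n p]
    push_cast
    linear_combination hi + af (n / p) * hj
  · rw [if_neg hpn] at hrel ⊢
    simp only [mul_zero, add_zero] at hrel
    obtain ⟨i, hi⟩ := hcong (p * n) 0 n 0 (x p).re (x p).im (by simpa using hrel)
    refine ⟨i, ?_⟩
    rw [mul_comm n p]
    push_cast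
    linear_combination hi

end Fermat.Agent.LT.C4
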