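import Fermat.Agent.MF.IntStruct.Main
import Fermat.Agent.Newforms.Basic
import Mathlib.LinearAlgebra.FreeModule.PID
import Mathlib.LinearAlgebra.Dual.Lemmas
import Mathlib.RingTheory.Localization.Module
import Mathlib.RingTheory.IntegralClosure.IntegrallyClosed
import Mathlib.Tactic.LinearCombination

/-!
# An integral form modulo `3` from a form with coefficients in a `ℤ[√-2]`-module

The coefficients of a weight two form lie in a finitely generated subgroup of `ℂ`, and applying
a `ℚ`-linear functional to them gives again a form, by the integral structure. Together with a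
functional killing a prime over `3` this turns congruences in `ℂ` into congruences in `ℤ`.
-/

set_option autoImplicit false

noncomputable section

namespace Fermat.Agent.LT.C4

open ModularFormClass Newforms

variable {M : ℕ} [NeZero M]

theorem exists_functional_form (L : ℂ →ₗ[ℚ] ℚ) (h : S2 M) :
    ∀ c : ℂ, ∃ h' : S2 M, ∀ n, qCoeff h' n = (L (c * qCoeff h n) : ℂ) := by
  have hmem : h ∈ Submodule.span ℂ {g : S2 M | ∀ n, ∃ m : ℤ, qCoeff g n = (m : ℂ)} := by
    have hs := MF.IntStruct.hasIntegralStructure M 2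
    rw [CuspForm.HasIntegralStructure, CuspForm.intLattice, Submodule.span_span_of_tower] at hs
    rw [hs]; exact Submodule.mem_top
  induction hmem using Submodule.span_induction with
  | mem g hg =>
    refine fun c => ⟨(L c : ℂ) • g, fun n => ?_⟩
    obtain ⟨m, hm⟩ := hg n
    rw [Newforms.qCoeff_smul, hm, show c * (m : ℂ) = (m : ℚ) • c by
      rw [Rat.smul_def]; push_cast; ring, map_smul, smul_eq_mul]
    push_cast; ring
  | zero => exact fun c => ⟨0, fun n => by simp [Newforms.qCoeff_zero_fun]⟩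
  | add x y _ _ hx hy =>
    intro c
    obtain ⟨a, ha⟩ := hx c
    obtain ⟨b, hb⟩ := hy c
    exact ⟨a + b, fun n => by
      rw [Newforms.qCoeff_add, ha, hb, Newforms.qCoeff_add, mul_add, map_add, Rat.cast_add]⟩
  | smul d x _ hx =>
    intro c
    obtain ⟨a, ha⟩ := hx (c * d)
    exact ⟨a, fun n => by rw [ha, Newforms.qCoeff_smul, mul_assoc]⟩

theorem exists_finset_coeff_mem (h : S2 M) :
    ∃ s : Finset ℂ, ∀ n, qCoeff h n ∈ Submodule.span ℤ (s : Set ℂ) := by
  classical
  have hmem : h ∈ Submodule.span ℂ {g : S2 M | ∀ n, ∃ m : ℤ, qCoeff g n = (m : ℂ)} := by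
    have hs := MF.IntStruct.hasIntegralStructure M 2
    rw [CuspForm.HasIntegralStructure, CuspForm.intLattice, Submodule.span_span_of_tower] at hs
    rw [hs]; exact Submodule.mem_top
  obtain ⟨t, ht, hmem'⟩ := Submodule.mem_span_finite_of_mem_span hmem
  obtain ⟨c, hc⟩ := Submodule.mem_span_finset'.1 hmem'
  refine ⟨Finset.univ.image c, fun n => ?_⟩
  rw [← hc, ← Newforms.coeffLin_apply, map_sum]
  refine Submodule.sum_mem _ fun i _ => ?_
  obtain ⟨m, hm⟩ := ht i.2 n
  rw [map_smul, Newforms.coeffLin_apply, hm, smul_eq_mul,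
    show c i * (m : ℂ) = m • c i by rw [zsmul_eq_mul]; ring]
  exact Submodule.smul_mem _ _ (Submodule.subset_span (by simp))

/-- From a form `h ≡ (f n)` modulo `3`, an integral form satisfying modulo `3` every relation of
the shape `f n + e f m = (x + y s) f k`, where `s² = -2` and `s` is read as `-1`. -/
theorem exists_integral_form_congr (h : S2 M) (f : ℕ → ℂ) (hf1 : f 1 = 1) (r : ℕ → ℤ)
    (hr0 : r 0 = 1) (hr : ∀ n, n ≠ 0 → (3 : ℤ) ∣ r n)
    (hh : ∀ n, qCoeff h n = ∑ i ∈ Finset.range (n + 1), f i * r (n - i))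
    (s : ℂ) (hs : s * s = -2) :
    ∃ (h' : S2 M) (af : ℕ → ℤ), (∀ n, qCoeff h' n = af n) ∧ (∃ n₀, ¬ (3 : ℤ) ∣ af n₀) ∧
      ∀ (n m k : ℕ) (e x y : ℤ), f n + e * f m = ((x : ℂ) + y * s) * f k →
        (3 : ℤ) ∣ af n + e * af m - (x - y) * af k := by
  classical
  obtain ⟨t, ht⟩ := exists_finset_coeff_mem h
  have hft : ∀ n, f n ∈ Submodule.span ℤ (t : Set ℂ) := by
    intro n
    induction n using Nat.strong_induction_on with
    | _ n ih =>
      have e := hh n
      rw [Finset.sum_range_succ, Nat.sub_self, hr0, Int.cast_one, mul_one, ← sub_eq_iff_eq_add'] at e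
      rw [← e]
      refine Submodule.sub_mem _ (ht n) (Submodule.sum_mem _ fun i hi => ?_)
      rw [show f i * (r (n - i) : ℂ) = r (n - i) • f i by rw [zsmul_eq_mul]; ring]
      exact Submodule.smul_mem _ _ (ih i (Finset.mem_range.1 hi))
  set Λ : Submodule ℤ ℂ := Submodule.span ℤ (Set.range f ∪ Set.range fun n => s * f n) with hΛ
  have hΛfg : Module.Finite ℤ Λ := by
    set T : Submodule ℤ ℂ := Submodule.span ℤ (t : Set ℂ) ⊔
      (Submodule.span ℤ (t : Set ℂ)).map (LinearMap.mulLeft ℤ s) with hT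
    have : Module.Finite ℤ T := Module.Finite.iff_fg.2
      (.sup (Submodule.fg_span t.finite_toSet) ((Submodule.fg_span t.finite_toSet).map _))
    have hle : Λ ≤ T := Submodule.span_le.2 (by
      rintro v (⟨n, rfl⟩ | ⟨n, rfl⟩)
      · exact Submodule.mem_sup_left (hft n)
      · exact Submodule.mem_sup_right ⟨_, hft n, rfl⟩)
    exact Module.Finite.of_injective (Submodule.inclusion hle) (Submodule.inclusion_injective hle)
  have hsΛ : ∀ v ∈ Λ, s * v ∈ Λ := by
    intro v hv
    induction hv using Submodule.span_induction with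
    | mem v hv =>
      rcases hv with ⟨n, rfl⟩ | ⟨n, rfl⟩
      · exact Submodule.subset_span (Or.inr ⟨n, rfl⟩)
      · rw [← mul_assoc, hs, show (-2 : ℂ) * f n = (-2 : ℤ) • f n by simp]
        exact Submodule.smul_mem _ _ (Submodule.subset_span (Or.inl ⟨n, rfl⟩))
    | zero => simp
    | add a b _ _ ha hb => rw [mul_add]; exact Λ.add_mem ha hb
    | smul c a _ ha => rw [mul_smul_comm]; exact Λ.smul_mem _ ha
  let S : Λ →ₗ[ℤ] Λ := ((LinearMap.mulLeft ℤ s).comp Λ.subtype).codRestrict Λ fun v => hsΛ v v.2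
  let P : Submodule ℤ Λ := LinearMap.range (LinearMap.id + S)
  have hS2 : ∀ v, S (S v) = (-2 : ℤ) • v := fun v => Subtype.ext (by
    show s * (s * (v : ℂ)) = _
    rw [← mul_assoc, hs]; simp)
  have h3P : ∀ v : Λ, (3 : ℤ) • v ∈ P := fun v => ⟨v - S v, by
    simp only [LinearMap.add_apply, LinearMap.id_apply, map_sub, hS2]
    module⟩
  let F : ℕ → Λ := fun n => ⟨f n, Submodule.subset_span (Or.inl ⟨n, rfl⟩)⟩
  obtain ⟨n₀, hn₀⟩ : ∃ n₀, F n₀ ∉ P := by
    by_contra! hall
    have hSP : ∀ v ∈ P, S v ∈ P := by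
      rintro _ ⟨w, rfl⟩
      exact ⟨S w, by simp [map_add]⟩
    have htop : ∀ v : Λ, v ∈ P := by
      rintro ⟨v, hv⟩
      induction hv using Submodule.span_induction with
      | mem v hv =>
        rcases hv with ⟨n, rfl⟩ | ⟨n, rfl⟩
        · exact hall n
        · exact hSP _ (hall n)
      | zero => exact P.zero_mem
      | add a b _ _ ha hb => exact P.add_mem ha hb
      | smul c a _ ha => exact P.smul_mem c ha
    -- `(1 + s)⁻¹` would stabilise a finitely generated faithful module
    have hne : (1 + s : ℂ) ≠ 0 := fun h0 => by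
      rw [eq_neg_of_add_eq_zero_right h0] at hs; norm_num at hs
    have hstab : ∀ v ∈ Λ, (1 + s)⁻¹ * v ∈ Λ := fun v hv => by
      obtain ⟨w, hw⟩ := htop ⟨v, hv⟩
      have hw' : (w : ℂ) + s * w = v := congrArg Subtype.val hw
      rw [show v = (1 + s) * (w : ℂ) by rw [← hw']; ring, inv_mul_cancel_left₀ hne]
      exact w.2
    have hint : IsIntegral ℤ ((1 + s)⁻¹) :=
      isIntegral_of_smul_mem_submodule Λ ((Submodule.ne_bot_iff _).2
        ⟨f 1, Submodule.subset_span (Or.inl ⟨1, rfl⟩), by rw [hf1]; exact one_ne_zero⟩)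
        (Module.Finite.iff_fg.1 hΛfg) _ hstab
    have hconj : starRingEnd ℂ s = -s := by
      have him := congrArg Complex.im hs
      have hre := congrArg Complex.re hs
      simp at him hre
      have : s.re = 0 := by
        rcases (show s.re = 0 ∨ s.im = 0 by
          rcases mul_eq_zero.1 (show s.re * s.im = 0 by linarith) with h | h
          exacts [Or.inl h, Or.inr h]) with h | h
        · exact h
        · rw [h] at hre; nlinarith
      exact Complex.ext (by simp [this]) (by simp)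
    have h13 : IsIntegral ℤ (algebraMap ℚ ℂ (1 / 3)) := by
      have h2 : IsIntegral ℤ ((1 + s)⁻¹ * starRingEnd ℂ (1 + s)⁻¹) :=
        hint.mul (hint.map (starRingEnd ℂ).toIntAlgHom)
      rw [map_inv₀, map_add, map_one, hconj, ← mul_inv] at h2
      rw [show (1 + s) * (1 + -s) = 3 by linear_combination -hs] at h2
      simpa using h2
    obtain ⟨z, hz⟩ := IsIntegrallyClosed.isIntegral_iff.1
      ((isIntegral_algebraMap_iff (algebraMap ℚ ℂ).injective).1 h13)
    rw [eq_intCast] at hz
    have hz' : ((3 * z : ℤ) : ℚ) = ((1 : ℤ) : ℚ) := by push_cast; rw [hz]; norm_num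
    have hz'' := Int.cast_injective hz'
    omega
  -- a functional modulo `3` killing `P`
  have : Fact (Nat.Prime 3) := ⟨Nat.prime_three⟩
  let : Module (ZMod 3) (Λ ⧸ P) := AddCommGroup.zmodModule fun q => by
    obtain ⟨v, rfl⟩ := P.mkQ_surjective q
    rw [← natCast_zsmul, ← map_smul, P.mkQ_apply, Submodule.Quotient.mk_eq_zero]
    exact h3P v
  obtain ⟨ψ, hψ⟩ : ∃ ψ : Λ ⧸ P →ₗ[ZMod 3] ZMod 3, ψ (P.mkQ (F n₀)) ≠ 0 := by
    by_contra! hψ
    refine hn₀ ((Submodule.Quotient.mk_eq_zero P).1 ?_)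
    exact (Module.forall_dual_apply_eq_zero_iff (ZMod 3) _).1 hψ
  let φ : Λ →ₗ[ℤ] ZMod 3 := (ψ.toAddMonoidHom.comp P.mkQ.toAddMonoidHom).toIntLinearMap
  have hφP : ∀ v ∈ P, φ v = 0 := fun v hv => by
    show ψ (P.mkQ v) = 0
    rw [P.mkQ_apply, (Submodule.Quotient.mk_eq_zero P).2 hv, map_zero]
  -- lift it to `ℤ` and extend it to `ℂ`
  let b := Module.Free.chooseBasis ℤ Λ
  let l : Λ →ₗ[ℤ] ℤ := b.constr ℤ fun i => (ZMod.val (φ (b i)) : ℤ)
  have hl : ∀ v, ((l v : ℤ) : ZMod 3) = φ v := fun v => by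
    refine LinearMap.congr_fun (f := (Int.castAddHom (ZMod 3)).toIntLinearMap.comp l) (g := φ)
      (b.ext fun i => ?_) v
    simp [l]
  have hli : LinearIndependent ℚ fun i => (b i : ℂ) :=
    (LinearIndependent.iff_fractionRing ℤ ℚ).1
      (b.linearIndependent.map' Λ.subtype Λ.ker_subtype)
  let B := Module.Basis.span hli
  obtain ⟨L, hL⟩ := LinearMap.exists_extend (B.constr ℚ fun i => ((l (b i) : ℤ) : ℚ))
  have hLb : ∀ i, L (b i : ℂ) = ((l (b i) : ℤ) : ℚ) := fun i => by
    have h1 := LinearMap.congr_fun hL (B i)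
    rw [LinearMap.comp_apply, Submodule.subtype_apply, Module.Basis.constr_basis] at h1
    rwa [Module.Basis.span_apply] at h1
  have hLl : ∀ v : Λ, L (v : ℂ) = ((l v : ℤ) : ℚ) := fun v =>
    LinearMap.congr_fun (f := (L.restrictScalars ℤ).comp Λ.subtype)
      (g := (Int.castAddHom ℚ).toIntLinearMap.comp l) (b.ext fun i => hLb i) v
  have hhΛ : ∀ n, qCoeff h n ∈ Λ := fun n => by
    rw [hh n]
    refine Submodule.sum_mem _ fun i _ => ?_
    rw [show f i * (r (n - i) : ℂ) = r (n - i) • f i by rw [zsmul_eq_mul]; ring]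
    exact Λ.smul_mem _ (Submodule.subset_span (Or.inl ⟨i, rfl⟩))
  obtain ⟨h', hh'⟩ := exists_functional_form L h 1
  let H : ℕ → Λ := fun n => ⟨qCoeff h n, hhΛ n⟩
  have hφH : ∀ n, φ (H n) = φ (F n) := fun n => by
    have e : H n = F n + ∑ i ∈ Finset.range n, r (n - i) • F i := by
      refine Subtype.ext ?_
      simp only [H, F, Submodule.coe_add, Submodule.coe_sum, SetLike.val_smul, zsmul_eq_mul, hh n,
        Finset.sum_range_succ, Nat.sub_self, hr0, Int.cast_one, mul_one]
      rw [add_comm]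
      congr 1
      exact Finset.sum_congr rfl fun i _ => mul_comm _ _
    rw [e, map_add, map_sum, add_eq_left]
    refine Finset.sum_eq_zero fun i hi => ?_
    rw [map_smul, zsmul_eq_mul,
      (ZMod.intCast_zmod_eq_zero_iff_dvd _ 3).2 (hr _ (by have := Finset.mem_range.1 hi; omega)),
      zero_mul]
  refine ⟨h', fun n => l (H n), fun n => ?_, ⟨n₀, fun hd => hψ ?_⟩, fun n m k e x y hrel => ?_⟩
  · rw [hh', one_mul, hLl (H n)]
    simp
  · have := (ZMod.intCast_zmod_eq_zero_iff_dvd _ 3).2 hd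
    rw [hl, hφH] at this
    exact this
  · refine (ZMod.intCast_zmod_eq_zero_iff_dvd _ 3).1 ?_
    have hrel' : F n + e • F m = x • F k + y • S (F k) := Subtype.ext (by
      simp only [Submodule.coe_add, SetLike.val_smul, zsmul_eq_mul]
      show f n + (e : ℂ) * f m = (x : ℂ) * f k + (y : ℂ) * (s * f k)
      rw [hrel]; ring)
    have hS : φ (S (F k)) = -φ (F k) := by
      rw [eq_neg_iff_add_eq_zero, ← map_add]
      exact hφP _ ⟨F k, by simp [add_comm]⟩
    have := congrArg φ hrel'
    simp only [map_add, map_smul, hS, zsmul_eq_mul] at this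
    push_cast
    rw [hl, hl, hl, hφH, hφH, hφH, this]
    ring

end Fermat.Agent.LT.C4
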