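import Fermat.Agent.MF.Defs
import Mathlib.NumberTheory.ModularForms.JacobiTheta.TwoVariable
import Mathlib.Analysis.Complex.LocallyUniformLimit
import Mathlib.Algebra.Order.Ring.Star
import Mathlib.GroupTheory.Perm.Cycle.Type

/-!
# The hexagonal theta series `∑ q^(m² + mn + n²)`

Weight one, `Γ₀(3)`, nebentypus the quadratic character mod `3`, `q`-expansion with integer
coefficients congruent to `1` modulo `3`. The inversion `τ ↦ -1/(3τ)` comes from two applications
of the functional equation of `jacobiTheta₂`.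
-/

set_option autoImplicit false

noncomputable section

namespace Fermat.Agent.LT.C4

open Complex ModularForm CongruenceSubgroup Function
open UpperHalfPlane hiding I I_re I_im
open scoped Real MatrixGroups ModularForm Manifold Topology

/-- The hexagonal quadratic form. -/
def hexQ (v : ℤ × ℤ) : ℤ := v.1 ^ 2 + v.1 * v.2 + v.2 ^ 2

theorem two_mul_hexQ (v : ℤ × ℤ) : v.1 ^ 2 + v.2 ^ 2 ≤ 2 * hexQ v := by
  simp only [hexQ]; nlinarith [sq_nonneg (v.1 + v.2)]

theorem hexQ_nonneg (v : ℤ × ℤ) : 0 ≤ hexQ v := by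
  nlinarith [two_mul_hexQ v, sq_nonneg v.1, sq_nonneg v.2]

/-- A summand. -/
def hexTerm (τ : ℂ) (v : ℤ × ℤ) : ℂ := cexp (2 * π * I * τ * (hexQ v : ℂ))

/-- The theta series as a function on `ℂ`. -/
def hexC (τ : ℂ) : ℂ := ∑' v, hexTerm τ v

/-- The Gaussian majorant. -/
def gauss (t : ℝ) (n : ℤ) : ℝ := Real.exp (-π * t * (n : ℝ) ^ 2)

theorem gauss_nonneg (t : ℝ) (n : ℤ) : 0 ≤ gauss t n := (Real.exp_pos _).le

theorem summable_gauss {t : ℝ} (ht : 0 < t) : Summable (gauss t) := by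
  have h := ((summable_jacobiTheta₂_term_iff 0 (t * I)).2 (by simpa using ht)).norm
  refine h.congr fun n => ?_
  rw [norm_jacobiTheta₂_term, gauss]
  simp only [mul_im, ofReal_re, I_im, mul_one, ofReal_im, I_re, mul_zero, add_zero, zero_im,
    sub_zero]
  ring_nf

theorem summable_gauss_mul {t t' : ℝ} (ht : 0 < t) (ht' : 0 < t') :
    Summable fun v : ℤ × ℤ => gauss t v.1 * gauss t' v.2 :=
  (summable_gauss ht).mul_of_nonneg (summable_gauss ht') (gauss_nonneg t) (gauss_nonneg t')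

theorem norm_hexTerm_le {τ : ℂ} {t : ℝ} (ht : 0 ≤ t) (h : t ≤ τ.im) (v : ℤ × ℤ) :
    ‖hexTerm τ v‖ ≤ gauss t v.1 * gauss t v.2 := by
  rw [hexTerm, Complex.norm_exp, gauss, gauss, ← Real.exp_add, Real.exp_le_exp]
  have hQ : ((v.1 : ℝ) ^ 2 + (v.2 : ℝ) ^ 2) ≤ 2 * (hexQ v : ℝ) := by
    exact_mod_cast two_mul_hexQ v
  have h0 : (0 : ℝ) ≤ (v.1 : ℝ) ^ 2 + (v.2 : ℝ) ^ 2 := by positivity
  simp only [mul_re, mul_im, re_ofNat, im_ofNat, ofReal_re, ofReal_im, I_re, I_im, intCast_re,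
    intCast_im]
  have := mul_le_mul h hQ h0 (ht.trans h)
  nlinarith [Real.pi_pos]

theorem summable_hexTerm {τ : ℂ} (hτ : 0 < τ.im) : Summable (hexTerm τ) :=
  Summable.of_norm_bounded (summable_gauss_mul hτ hτ) (norm_hexTerm_le hτ.le le_rfl)

theorem norm_hexC_le {τ : ℂ} {t : ℝ} (ht : 0 < t) (h : t ≤ τ.im) :
    ‖hexC τ‖ ≤ ∑' v : ℤ × ℤ, gauss t v.1 * gauss t v.2 :=
  tsum_of_norm_bounded (summable_gauss_mul ht ht).hasSum (norm_hexTerm_le ht.le h)

theorem hexC_add_one (τ : ℂ) : hexC (τ + 1) = hexC τ := by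
  refine tsum_congr fun v => ?_
  rw [hexTerm, hexTerm, mul_add, add_mul, Complex.exp_add, mul_one,
    show (2 * π * I * (hexQ v : ℂ) : ℂ) = (hexQ v : ℂ) * (2 * π * I) by ring,
    Complex.exp_int_mul_two_pi_mul_I, mul_one]

theorem differentiableAt_hexC {τ : ℂ} (hτ : 0 < τ.im) : DifferentiableAt ℂ hexC τ := by
  have hU : IsOpen {z : ℂ | τ.im / 2 < z.im} := isOpen_lt continuous_const Complex.continuous_im
  refine (differentiableOn_tsum_of_summable_norm (F := fun v z => hexTerm z v)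
    (summable_gauss_mul (half_pos hτ) (half_pos hτ)) (fun v z _ => ?_) hU
    (fun v z hz => norm_hexTerm_le (half_pos hτ).le hz.le v)).differentiableAt
    (hU.mem_nhds (show τ.im / 2 < τ.im by linarith))
  exact ((differentiableAt_id.const_mul (2 * π * I)).mul_const (hexQ v : ℂ)).cexp.differentiableWithinAt

/-- `(r z)^(1/2) (r' z)^(1/2) = √(r r') z`. -/
theorem cpow_half_mul {r r' : ℝ} (hr : 0 < r) (hr' : 0 < r') {z : ℂ} (hz : z ≠ 0) :
    ((r : ℂ) * z) ^ (1 / 2 : ℂ) * ((r' : ℂ) * z) ^ (1 / 2 : ℂ) = Real.sqrt (r * r') * z := by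
  rw [cpow_def_of_ne_zero (mul_ne_zero (ofReal_ne_zero.2 hr.ne') hz),
    cpow_def_of_ne_zero (mul_ne_zero (ofReal_ne_zero.2 hr'.ne') hz), log_ofReal_mul hr hz,
    log_ofReal_mul hr' hz, ← Complex.exp_add]
  have e : Real.sqrt (r * r') = Real.exp ((Real.log r + Real.log r') * (1 / 2)) := by
    rw [Real.sqrt_eq_rpow, Real.rpow_def_of_pos (mul_pos hr hr'),
      Real.log_mul hr.ne' hr'.ne']
  rw [e, ofReal_exp, show ((↑(Real.log r) + log z) * (1 / 2 : ℂ) +
    (↑(Real.log r') + log z) * (1 / 2 : ℂ)) =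
      (((Real.log r + Real.log r') * (1 / 2) : ℝ) : ℂ) + log z by push_cast; ring,
    Complex.exp_add, Complex.exp_log hz]

theorem im_neg_inv_pos {τ : ℂ} (hτ : 0 < τ.im) : 0 < (-1 / τ).im := by
  rw [neg_div, neg_im, one_div, inv_im, neg_div, neg_neg]
  exact div_pos hτ (normSq_pos.2 fun h => by simp [h] at hτ)

theorem hexC_inv {τ : ℂ} (hτ : 0 < τ.im) :
    hexC (-1 / (3 * τ)) = (Real.sqrt 3 : ℂ) * (-I * τ) * hexC τ := by
  have hτ0 : τ ≠ 0 := fun h => by simp [h] at hτ
  have hz : -I * τ ≠ 0 := mul_ne_zero (neg_ne_zero.2 I_ne_zero) hτ0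
  set σ := -1 / (3 * τ) with hσ
  have hσim : 0 < σ.im := im_neg_inv_pos (by simpa using hτ)
  set c₁ : ℂ := 1 / (-I * (2 * τ)) ^ (1 / 2 : ℂ) with hc₁
  set c₂ : ℂ := 1 / (-I * (3 / 2 * τ)) ^ (1 / 2 : ℂ) with hc₂
  let G : ℤ × ℤ → ℂ := fun v => cexp (3 / 2 * π * I * τ * (v.1 : ℂ) ^ 2
    + π * I * v.1 * v.2 + π * I * (v.2 : ℂ) ^ 2 * (-1 / (2 * τ)))
  have hGsum : Summable G := by
    have ht' : (0 : ℝ) < (-1 / (2 * τ)).im := im_neg_inv_pos (by simpa using hτ)
    refine Summable.of_norm_bounded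
      (summable_gauss_mul (by positivity : (0 : ℝ) < 3 / 2 * τ.im) ht') fun v => le_of_eq ?_
    simp only [G, Complex.norm_exp, gauss, ← Real.exp_add]
    congr 1
    generalize (-1 / (2 * τ) : ℂ) = w
    simp [← ofReal_intCast, pow_two]
    ring
  -- first application of the functional equation, in the second variable
  have step1 : hexC τ = c₁ * ∑' v, G v := by
    rw [hexC, (summable_hexTerm hτ).tsum_prod, hGsum.tsum_prod, ← tsum_mul_left]
    refine tsum_congr fun m => ?_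
    calc ∑' n, hexTerm τ (m, n)
        = cexp (2 * π * I * τ * (m : ℂ) ^ 2) * jacobiTheta₂ (m * τ) (2 * τ) := by
          rw [jacobiTheta₂, ← tsum_mul_left]
          refine tsum_congr fun n => ?_
          rw [hexTerm, jacobiTheta₂_term, ← Complex.exp_add, hexQ]
          push_cast
          ring_nf
      _ = c₁ * ∑' k, G (m, k) := by
          rw [jacobiTheta₂_functional_equation, ← hc₁, jacobiTheta₂, mul_assoc c₁,
            mul_left_comm (cexp _) c₁, ← tsum_mul_left, ← tsum_mul_left]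
          congr 1
          refine tsum_congr fun k => ?_
          simp only [G, jacobiTheta₂_term, ← Complex.exp_add]
          congr 1
          field_simp
          ring
  -- second application, in the first variable
  have hG2 : Summable fun p : ℤ × ℤ => hexTerm σ (p.2, -p.1) :=
    ((Equiv.prodComm ℤ ℤ).trans ((Equiv.refl ℤ).prodCongr (Equiv.neg ℤ))).summable_iff.2
      (summable_hexTerm hσim)
  have he : hexC σ = ∑' p : ℤ × ℤ, hexTerm σ (p.2, -p.1) :=
    (((Equiv.prodComm ℤ ℤ).trans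
      ((Equiv.refl ℤ).prodCongr (Equiv.neg ℤ))).tsum_eq (hexTerm σ)).symm
  have step2 : ∑' v, G v = c₂ * hexC σ := by
    rw [he, hG2.tsum_prod, hGsum.tsum_prod, ← Summable.tsum_comm (f := fun m k => G (m, k)) hGsum,
      ← tsum_mul_left]
    refine tsum_congr fun k => ?_
    calc ∑' m, G (m, k)
        = cexp (π * I * (k : ℂ) ^ 2 * (-1 / (2 * τ))) * jacobiTheta₂ (k / 2) (3 / 2 * τ) := by
          rw [jacobiTheta₂, ← tsum_mul_left]
          refine tsum_congr fun m => ?_
          simp only [G, jacobiTheta₂_term, ← Complex.exp_add]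
          ring_nf
      _ = c₂ * ∑' j, hexTerm σ (j, -k) := by
          rw [jacobiTheta₂_functional_equation, ← hc₂, jacobiTheta₂, mul_assoc c₂,
            mul_left_comm (cexp _) c₂, ← tsum_mul_left, ← tsum_mul_left]
          congr 1
          refine tsum_congr fun j => ?_
          simp only [hexTerm, hexQ, jacobiTheta₂_term, ← Complex.exp_add, hσ]
          congr 1
          push_cast
          field_simp
          ring
  have hprod : c₁ * c₂ = ((Real.sqrt 3 : ℂ) * (-I * τ))⁻¹ := by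
    rw [hc₁, hc₂, div_mul_div_comm, one_mul, one_div,
      show -I * (2 * τ) = ((2 : ℝ) : ℂ) * (-I * τ) by push_cast; ring,
      show -I * (3 / 2 * τ) = ((3 / 2 : ℝ) : ℂ) * (-I * τ) by push_cast; ring,
      cpow_half_mul two_pos (by norm_num) hz]
    norm_num
  rw [step1, step2, ← mul_assoc c₁, hprod, mul_inv_cancel_left₀]
  exact mul_ne_zero (ofReal_ne_zero.2 (Real.sqrt_pos.2 three_pos).ne') hz

/-- The theta series on the upper half plane. -/
def hexFun (z : ℍ) : ℂ := hexC z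

/-- The lower generator of `Γ₀(3)`. -/
def lowerThree : SL(2, ℤ) := ⟨!![1, 0; 3, 1], by simp [Matrix.det_fin_two]⟩

theorem hexFun_slash_apply (γ : SL(2, ℤ)) (z : ℍ) :
    (hexFun ∣[(1 : ℤ)] γ) z = hexC (((γ 0 0 : ℂ) * z + γ 0 1) / ((γ 1 0 : ℂ) * z + γ 1 1)) *
      ((γ 1 0 : ℂ) * z + γ 1 1)⁻¹ := by
  rw [SL_slash_apply, hexFun, UpperHalfPlane.coe_specialLinearGroup_apply]
  simp [denom]

theorem hexFun_slash_T : hexFun ∣[(1 : ℤ)] ModularGroup.T = hexFun := by
  ext z
  rw [hexFun_slash_apply]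
  simp [ModularGroup.T, hexFun, hexC_add_one]

theorem hexFun_slash_lowerThree : hexFun ∣[(1 : ℤ)] lowerThree = hexFun := by
  ext z
  have hz : (z : ℂ) ≠ 0 := z.ne_zero
  have h3 : 3 * (z : ℂ) + 1 ≠ 0 := fun h => by
    have := congrArg Complex.im h
    simp [z.im_pos.ne'] at this
  rw [hexFun_slash_apply, hexFun]
  simp [lowerThree]
  set w : ℂ := -1 / (3 * (z : ℂ)) with hw
  have hw1 : 0 < (w - 1).im := by simpa [hw] using im_neg_inv_pos (τ := 3 * (z : ℂ)) (by simpa using z.im_pos)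
  have e : hexC (z / (3 * z + 1)) = (3 * z + 1) * hexC z := by
    have h1 := hexC_inv hw1
    have h2 := hexC_inv (τ := (z : ℂ)) z.im_pos
    rw [← hw] at h2
    rw [← sub_add_cancel w 1, hexC_add_one] at h2
    rw [h2] at h1
    have e1 : -1 / (3 * (w - 1)) = (z : ℂ) / (3 * z + 1) := by
      have : w - 1 = -(3 * (z : ℂ) + 1) / (3 * z) := by rw [hw]; field_simp; ring
      rw [this]; field_simp
    rw [e1] at h1
    rw [h1]
    have hs : (Real.sqrt 3 : ℂ) * Real.sqrt 3 = 3 := by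
      rw [← ofReal_mul, Real.mul_self_sqrt (by norm_num)]; norm_num
    have : w - 1 = -(3 * (z : ℂ) + 1) / (3 * z) := by rw [hw]; field_simp; ring
    rw [this]
    field_simp
    linear_combination (-(I ^ 2) * hexC (z : ℂ)) * hs - 3 * hexC (z : ℂ) * I_sq
  rw [e]
  field_simp

theorem hexFun_slash_neg_one : hexFun ∣[(1 : ℤ)] (-1 : SL(2, ℤ)) = -hexFun := by
  ext z
  rw [hexFun_slash_apply, Pi.neg_apply]
  simp [hexFun]

/-- The sign of the lower right entry modulo `3`. -/
def hexSign (γ : SL(2, ℤ)) : ℂ := if ((γ 1 1 : ℤ) : ZMod 3) = 1 then 1 else -1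

theorem slash_zpow {f : ℍ → ℂ} {g : SL(2, ℤ)} (h : f ∣[(1 : ℤ)] g = f) (k : ℤ) :
    f ∣[(1 : ℤ)] (g ^ k) = f := by
  induction k with
  | zero => simp
  | succ n ih => rw [zpow_add_one, SlashAction.slash_mul, ih, h]
  | pred n ih =>
    have h' : f ∣[(1 : ℤ)] g⁻¹ = f := by
      conv_lhs => rw [← h]
      rw [← SlashAction.slash_mul, mul_inv_cancel, SlashAction.slash_one]
    rw [zpow_sub_one, SlashAction.slash_mul, ih, h']

theorem coe_lowerThree_zpow (k : ℤ) :
    (lowerThree ^ k).1 = !![1, 0; 3 * k, 1] := by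
  induction k with
  | zero => simp [Matrix.one_fin_two]
  | succ n ih =>
    rw [zpow_add_one, Matrix.SpecialLinearGroup.coe_mul, ih]
    simp [lowerThree]
    ring
  | pred n ih =>
    rw [zpow_sub_one, Matrix.SpecialLinearGroup.coe_mul, ih,
      Matrix.SpecialLinearGroup.coe_inv, Matrix.adjugate_fin_two]
    simp [lowerThree]
    ring

theorem hexFun_slash_gamma0 {γ : SL(2, ℤ)} (hγ : γ ∈ Gamma0 3) :
    hexFun ∣[(1 : ℤ)] γ = hexSign γ • hexFun := by
  induction hn : (γ 1 0).natAbs using Nat.strong_induction_on generalizing γ with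
  | _ n ih =>
    have hdvd : (3 : ℤ) ∣ γ 1 0 := by
      simpa using (ZMod.intCast_zmod_eq_zero_iff_dvd _ 3).1 (Gamma0_mem.1 hγ)
    have hdet : γ 0 0 * γ 1 1 - γ 0 1 * γ 1 0 = 1 := by
      rw [← Matrix.det_fin_two γ.1]; exact γ.2
    by_cases hc : γ 1 0 = 0
    · rw [hc, mul_zero, sub_zero] at hdet
      rcases Int.eq_one_or_neg_one_of_mul_eq_one' hdet with ⟨ha, hd⟩ | ⟨ha, hd⟩
      · have e : γ = ModularGroup.T ^ (γ 0 1) := by
          ext i j
          rw [ModularGroup.coe_T_zpow]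
          fin_cases i <;> fin_cases j <;> simp [ha, hd, hc]
        rw [hexSign, hd, e, slash_zpow hexFun_slash_T]
        simp
      · have e : γ = -1 * ModularGroup.T ^ (-γ 0 1) := by
          ext i j
          rw [Matrix.SpecialLinearGroup.coe_mul, Matrix.SpecialLinearGroup.coe_neg,
            Matrix.SpecialLinearGroup.coe_one, ModularGroup.coe_T_zpow]
          fin_cases i <;> fin_cases j <;> simp [ha, hd, hc, Matrix.mul_apply, Fin.sum_univ_two]
        rw [hexSign, hd, e, SlashAction.slash_mul, hexFun_slash_neg_one, SlashAction.neg_slash,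
          slash_zpow hexFun_slash_T, if_neg (by decide)]
        simp
    · set a' : ℤ := Int.bmod (γ 0 0) (γ 1 0).natAbs with ha'
      obtain ⟨q, hq⟩ : ∃ q : ℤ, γ 0 0 + q * γ 1 0 = a' := by
        obtain ⟨r, hr⟩ : ((γ 1 0).natAbs : ℤ) ∣ a' - γ 0 0 := by
          rw [ha']; exact (Int.modEq_iff_dvd.1 Int.bmod_emod.symm)
        rcases Int.natAbs_eq (γ 1 0) with h | h
        · exact ⟨r, by rw [h, mul_comm r]; omega⟩
        · exact ⟨-r, by rw [h, neg_mul_neg, mul_comm r]; omega⟩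
      have ha'le : 2 * a'.natAbs ≤ (γ 1 0).natAbs := by
        have h0 : 0 < (γ 1 0).natAbs := Int.natAbs_pos.2 hc
        have h1 := Int.le_bmod (x := γ 0 0) h0
        have h2 := Int.bmod_lt (x := γ 0 0) h0
        omega
      have ha'0 : a' ≠ 0 := fun h => by
        obtain ⟨s, hs⟩ := hdvd
        have hq0 := hq.trans h
        have : (3 : ℤ) ∣ 1 := ⟨s * (-q * γ 1 1 - γ 0 1), by
          linear_combination -hdet + γ 1 1 * hq0 + (-q * γ 1 1 - γ 0 1) * hs⟩
        omega
      set c' : ℤ := Int.bmod (γ 1 0) (3 * a'.natAbs) with hc'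
      obtain ⟨k, hk⟩ : ∃ k : ℤ, γ 1 0 + 3 * k * a' = c' := by
        obtain ⟨r, hr⟩ : ((3 * a'.natAbs : ℕ) : ℤ) ∣ c' - γ 1 0 := by
          rw [hc']; exact (Int.modEq_iff_dvd.1 Int.bmod_emod.symm)
        rw [Nat.cast_mul, Nat.cast_ofNat] at hr
        rcases Int.natAbs_eq a' with h | h
        · exact ⟨r, by rw [← h] at hr; linear_combination -hr⟩
        · exact ⟨-r, by linear_combination -hr - 3 * r * h⟩
      have hc'lt : c'.natAbs < (γ 1 0).natAbs := by
        have h0 : 0 < 3 * a'.natAbs := by omega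
        have h1 := Int.le_bmod (x := γ 1 0) h0
        have h2 := Int.bmod_lt (x := γ 1 0) h0
        omega
      set δ := lowerThree ^ k * (ModularGroup.T ^ q * γ) with hδ
      have hδ10 : δ 1 0 = c' := by
        rw [hδ, Matrix.SpecialLinearGroup.coe_mul, Matrix.SpecialLinearGroup.coe_mul,
          coe_lowerThree_zpow, ModularGroup.coe_T_zpow]
        simp only [Matrix.mul_apply, Fin.sum_univ_two]
        simp
        linear_combination hk + 3 * k * hq
      have hδ11 : ((δ 1 1 : ℤ) : ZMod 3) = (γ 1 1 : ℤ) := by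
        rw [hδ, Matrix.SpecialLinearGroup.coe_mul, Matrix.SpecialLinearGroup.coe_mul,
          coe_lowerThree_zpow, ModularGroup.coe_T_zpow]
        simp only [Matrix.mul_apply, Fin.sum_univ_two]
        simp [show (3 : ZMod 3) = 0 from rfl]
      have hδ0 : δ ∈ Gamma0 3 := by
        rw [Gamma0_mem, hδ10, ZMod.intCast_zmod_eq_zero_iff_dvd, ← hk]
        exact dvd_add hdvd (Dvd.intro _ (mul_assoc _ _ _).symm)
      have h := ih _ (hn ▸ hδ10.symm ▸ hc'lt) hδ0 rfl
      rw [hδ, SlashAction.slash_mul, slash_zpow hexFun_slash_lowerThree, SlashAction.slash_mul,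
        slash_zpow hexFun_slash_T, ← hδ] at h
      rw [h, hexSign, hexSign, hδ11]

theorem hexFun_slash_S (z : ℍ) :
    (hexFun ∣[(1 : ℤ)] ModularGroup.S) z = -I / (Real.sqrt 3 : ℂ) * hexC ((z : ℂ) / 3) := by
  have hz : (z : ℂ) ≠ 0 := z.ne_zero
  rw [hexFun_slash_apply]
  simp [ModularGroup.S, neg_div]
  have h := hexC_inv (τ := (z : ℂ) / 3) (by simpa using z.im_pos)
  rw [show (-1 : ℂ) / (3 * (z / 3)) = -(z : ℂ)⁻¹ by field_simp] at h
  have hs : (Real.sqrt 3 : ℂ) * Real.sqrt 3 = 3 := by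
    rw [← ofReal_mul, Real.mul_self_sqrt (by norm_num)]; norm_num
  have hs0 : (Real.sqrt 3 : ℂ) ≠ 0 := ofReal_ne_zero.2 (Real.sqrt_pos.2 three_pos).ne'
  rw [h]
  field_simp
  linear_combination -(hexC ((z : ℂ) / 3)) * hs

theorem mdiff_hexFun : MDiff hexFun :=
  UpperHalfPlane.mdifferentiable_iff.2 fun τ hτ => by
    refine ((differentiableAt_hexC hτ).congr_of_eventuallyEq ?_).differentiableWithinAt
    filter_upwards [(isOpen_lt continuous_const Complex.continuous_im).mem_nhds hτ] with w hw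
    simp [hexFun, ofComplex_apply_of_im_pos hw]

theorem isBoundedAtImInfty_hexFun_slash (γ : SL(2, ℤ)) :
    IsBoundedAtImInfty (hexFun ∣[(1 : ℤ)] γ) := by
  have hb : ∀ (c : ℂ) (j : ℤ) (r : ℝ), 0 < r →
      IsBoundedAtImInfty fun z : ℍ => c * hexC ((r : ℂ) * (z : ℂ) + j) := by
    intro c j r hr
    refine isBoundedAtImInfty_iff.2 ⟨‖c‖ * ∑' v : ℤ × ℤ, gauss r v.1 * gauss r v.2, 1,
      fun z hz => ?_⟩
    rw [norm_mul]
    refine mul_le_mul_of_nonneg_left (norm_hexC_le hr ?_) (norm_nonneg _)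
    simpa using le_mul_of_one_le_right hr.le hz
  by_cases h0 : γ ∈ Gamma0 3
  · rw [hexFun_slash_gamma0 h0]
    have := hb (hexSign γ) 0 1 one_pos
    simpa [hexFun] using! this
  · set j : ℤ := γ 1 0 * γ 1 1
    set γ₀ := γ * ModularGroup.T ^ (-j) * ModularGroup.S⁻¹
    have hγ₀ : γ₀ ∈ Gamma0 3 := by
      rw [Gamma0_mem] at h0 ⊢
      have key : ∀ c d : ZMod 3, c ≠ 0 → c * d * c - d = 0 := by decide
      rw [show γ₀ 1 0 = j * γ 1 0 - γ 1 1 by
        simp only [γ₀, Matrix.SpecialLinearGroup.coe_mul, Matrix.SpecialLinearGroup.coe_inv,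
          ModularGroup.coe_T_zpow, ModularGroup.coe_S, Matrix.adjugate_fin_two, Matrix.mul_apply,
          Fin.sum_univ_two]
        simp
        ring]
      push_cast [j]
      exact key _ _ h0
    have hγ : γ = γ₀ * ModularGroup.S * ModularGroup.T ^ j := by
      simp only [γ₀]; group
    rw [hγ, SlashAction.slash_mul, SlashAction.slash_mul, hexFun_slash_gamma0 hγ₀]
    exact isBoundedAtImInfty_iff.2 (by
      obtain ⟨M, A, hM⟩ := isBoundedAtImInfty_iff.1
        (hb (hexSign γ₀ * (-I / (Real.sqrt 3 : ℂ))) 0 (1 / 3) (by norm_num))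
      refine ⟨M, A, fun z hz => ?_⟩
      have e : (((hexSign γ₀ • hexFun) ∣[(1 : ℤ)] ModularGroup.S) ∣[(1 : ℤ)] (ModularGroup.T ^ j)) z =
          hexSign γ₀ * (-I / (Real.sqrt 3 : ℂ)) * hexC (((j : ℂ) + z) / 3) := by
        have hd : ∀ g : SL(2, ℤ), denom (Matrix.SpecialLinearGroup.toGL
            ((Matrix.SpecialLinearGroup.map (Int.castRingHom ℝ)) g)) (z : ℂ) =
              (g 1 0 : ℂ) * z + g 1 1 := fun g => by simp [denom]
        rw [SL_slash_apply, ModularForm.SL_smul_slash, hd,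
          UpperHalfPlane.modular_T_zpow_smul, ModularGroup.coe_T_zpow, Pi.smul_apply,
          hexFun_slash_S, UpperHalfPlane.coe_vadd]
        simp [mul_assoc]
      rw [e]
      have := hM ((j : ℝ) +ᵥ z) (by rwa [UpperHalfPlane.vadd_im])
      simpa [div_eq_inv_mul, add_comm] using this)

theorem periodic_hexFun : Periodic (hexFun ∘ ofComplex) (1 : ℂ) := by
  intro w
  by_cases hw : 0 < w.im
  · simp [hexFun, ofComplex_apply_of_im_pos hw,
      ofComplex_apply_of_im_pos (show 0 < (w + 1).im by simpa using hw), hexC_add_one]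
  · rw [comp_apply, comp_apply, ofComplex_apply_of_im_nonpos (not_lt.1 hw),
      ofComplex_apply_of_im_nonpos (show (w + 1).im ≤ 0 by simpa using not_lt.1 hw)]

theorem hexFun_mem_qFunctions : hexFun ∈ MF.qFunctions :=
  ⟨periodic_hexFun, mdiff_hexFun, by simpa using isBoundedAtImInfty_hexFun_slash 1⟩

/-- The hexagonal theta series as a modular form on `Γ₁(3)`. -/
def hexForm : ModularForm (Gamma1 3) 1 where
  toFun := hexFun
  slash_action_eq' A hA := by
    obtain ⟨γ, hγ, rfl⟩ := Subgroup.mem_map.1 hA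
    obtain ⟨-, h11, h10⟩ := (Gamma1_mem 3 γ).1 hγ
    show hexFun ∣[(1 : ℤ)] γ = _
    rw [hexFun_slash_gamma0 (Gamma0_mem.2 h10), hexSign, if_pos h11, one_smul]
  holo' := mdiff_hexFun
  bdd_at_cusps' {c} hc := by
    rw [Subgroup.IsArithmetic.isCusp_iff_isCusp_SL2Z] at hc
    rw [OnePoint.isBoundedAt_iff_forall_SL2Z hc]
    exact fun γ _ => isBoundedAtImInfty_hexFun_slash γ

/-- The vectors of norm `n`. -/
def hexFib (n : ℕ) : Finset (ℤ × ℤ) :=
  (Finset.Icc (-(2 * n : ℤ)) (2 * n) ×ˢ Finset.Icc (-(2 * n : ℤ)) (2 * n)).filter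
    fun v => hexQ v = n

theorem mem_hexFib {n : ℕ} {v : ℤ × ℤ} : v ∈ hexFib n ↔ hexQ v = n := by
  refine ⟨fun h => (Finset.mem_filter.1 h).2, fun h => Finset.mem_filter.2 ⟨?_, h⟩⟩
  have := two_mul_hexQ v
  rw [h] at this
  have h1 := Int.le_self_sq v.1
  have h2 := Int.le_self_sq v.2
  have h3 := Int.le_self_sq (-v.1)
  have h4 := Int.le_self_sq (-v.2)
  rw [neg_sq] at h3 h4
  simp only [Finset.mem_product, Finset.mem_Icc]
  have := sq_nonneg v.1
  have := sq_nonneg v.2
  omega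

theorem hexFib_zero : hexFib 0 = {(0, 0)} := by decide

theorem three_dvd_card_hexFib {n : ℕ} (hn : n ≠ 0) : 3 ∣ (hexFib n).card := by
  let r : {v // v ∈ hexFib n} → {v // v ∈ hexFib n} := fun v =>
    ⟨(-v.1.1 - v.1.2, v.1.1), mem_hexFib.2 (by rw [← mem_hexFib.1 v.2]; simp [hexQ]; ring)⟩
  have h3 : r^[3] = id := by
    funext v
    simp only [Function.iterate_succ, Function.iterate_zero, comp_apply, id, r]
    exact Subtype.ext (Prod.ext (by simp only; ring) (by simp only; ring))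
  have : Fact (Nat.Prime 3) := ⟨Nat.prime_three⟩
  have h := Equiv.Perm.card_fixedPoints_modEq (f := r) (n := 1) (p := 3) (by rw [pow_one]; exact h3)
  have hfix : IsEmpty (Function.fixedPoints r) := ⟨fun ⟨v, hv⟩ => by
    have h1 := congrArg (fun w : {v // v ∈ hexFib n} => w.1.1) hv
    have h2 := congrArg (fun w : {v // v ∈ hexFib n} => w.1.2) hv
    simp only [r] at h1 h2
    have hQ := mem_hexFib.1 v.2
    simp only [hexQ, show v.1.2 = 0 by omega, show v.1.1 = 0 by omega] at hQ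
    exact hn (by simpa using hQ.symm)⟩
  rw [Fintype.card_coe, Fintype.card_eq_zero] at h
  exact (Nat.modEq_zero_iff_dvd).1 h

/-- The `q`-expansion of the hexagonal theta series. -/
theorem qExpansion_hexFun (n : ℕ) : (qExpansion 1 hexFun).coeff n = ((hexFib n).card : ℂ) := by
  show (qExpansion 1 (⇑hexForm)).coeff n = _
  refine (ModularFormClass.qExpansion_coeff_unique (c := fun m => ((hexFib m).card : ℂ)) (f := hexForm) (Γ := (Gamma1 3 : Subgroup
    (GL (Fin 2) ℝ))) (k := 1) one_pos (by simp) (fun τ => ?_) n).symm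
  let e : (Σ n : ℕ, {v // v ∈ hexFib n}) ≃ ℤ × ℤ :=
    { toFun := fun p => p.2.1
      invFun := fun v => ⟨(hexQ v).toNat, v, mem_hexFib.2 (Int.toNat_of_nonneg (hexQ_nonneg v)).symm⟩
      left_inv := fun ⟨m, v, hv⟩ => by
        have hm : (hexQ v).toNat = m := by rw [mem_hexFib.1 hv]; rfl
        subst hm
        rfl
      right_inv := fun _ => rfl }
  have hs : HasSum (fun p => hexTerm τ (e p)) (hexFun τ) :=
    e.hasSum_iff.2 (summable_hexTerm τ.im_pos).hasSum
  refine hs.sigma fun m => ?_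
  have : ∀ v : {v // v ∈ hexFib m}, hexTerm τ (e ⟨m, v⟩) = Function.Periodic.qParam 1 τ ^ m :=
    fun v => by
      show hexTerm τ v.1 = _
      rw [hexTerm, mem_hexFib.1 v.2, Function.Periodic.qParam, ← Complex.exp_nat_mul]
      push_cast
      ring_nf
  have hf := hasSum_fintype fun v : {v // v ∈ hexFib m} => hexTerm τ (e ⟨m, v⟩)
  rw [Finset.sum_congr rfl fun v _ => this v, Finset.sum_const, Finset.card_univ,
    Fintype.card_coe, nsmul_eq_mul] at hf
  simpa [smul_eq_mul] using hf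

end Fermat.Agent.LT.C4
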